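import Fermat.Agent.GT.Iface
import Fermat.Agent.GR.C.FixedRep
import Fermat.Agent.S55.DIC.Unram2

/-!
# GT-W (S36 wiring), piece W3b : a function fixed by inertia is defined over a number field unramified at `A`

`GR.C.exists_coeffField` : the coefficients of `w` generate a number field `L₀`, fixed by every `σ` fixing `w`.
So `A.inertiaSubgroupIn ℚ ≤ L₀.fixingSubgroup`; `S55.DIC.inertia_le_fixingSubgroup_iff` + `exists_place_below`
(`S55/DIC/Unram1.lean`) give `ord v q = 1` for the place `v` of `L₀` below `A`, hence `UnramAt A q L₀`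
(`x ∈ 𝔪_A ∩ L₀ ⟹ ord v x ≥ 1 = ord v q ⟹ x / q ∈ A`).  `BR3_DefOver` : the series `w₀` over `L₀` with the same
coefficients maps to `w`, and `w₀ ∈ FF L₀ N` by `GR.C.mem_FF_of_coeffMap_mem`.
-/

set_option autoImplicit false

open ModularCurve

namespace Fermat.Agent.GT.W

open Fermat.Agent.GR Fermat.Agent.GR.E

/-- A number field contained in the fixed field of the inertia group of `A` is unramified at `A`. -/
theorem Unram_unramAt_of_inertFixed {q : ℕ} (hq : q.Prime) (A : ValuationSubring Qb)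
    (hA : A.LiesOverPrime q) (L : IntermediateField ℚ Qb) [FiniteDimensional ℚ L]
    (hL : InertFixed A L) : UnramAt A q L := by
  haveI : NumberField L := { to_charZero := inferInstance, to_finiteDimensional := inferInstance }
  obtain ⟨v, -, hv⟩ := Fermat.Agent.S55.DIC.exists_place_below L A hq hA
  have hle : A.inertiaSubgroupIn ℚ ≤ L.fixingSubgroup := by
    intro τ hτ
    rw [IntermediateField.mem_fixingSubgroup_iff]
    intro a ha
    exact hL τ hτ ⟨a, ha⟩
  have hord : Fermat.Agent.S55.DIC.ord v ((q : ℕ) : L) = 1 :=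
    (Fermat.Agent.S55.DIC.inertia_le_fixingSubgroup_iff L A hq hA v hv).1 hle
  intro x hx
  by_cases hx0 : x = 0
  · rw [hx0, map_zero, zero_div]
    exact A.zero_mem
  have hq0 : ((q : ℕ) : L) ≠ 0 := Nat.cast_ne_zero.2 hq.ne_zero
  have h1 : ¬ (((x⁻¹ : L) : Qb) ∈ A) := by
    intro h
    have h3 := Fermat.Agent.Lib.Frobenius.nonunits_mul A hx h
    have hx' : (x : Qb) ≠ 0 := by exact_mod_cast hx0
    have h4 : algebraMap L Qb x * ((x⁻¹ : L) : Qb) = 1 := by
      show (x : Qb) * ((x⁻¹ : L) : Qb) = 1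
      push_cast
      exact mul_inv_cancel₀ hx'
    rw [h4, ValuationSubring.mem_nonunits_iff, map_one] at h3
    exact lt_irrefl _ h3
  rw [hv x⁻¹ (inv_ne_zero hx0), Fermat.Agent.S55.DIC.ord_inv] at h1
  have h2 : 0 ≤ Fermat.Agent.S55.DIC.ord v (x * ((q : ℕ) : L)⁻¹) := by
    rw [Fermat.Agent.S55.DIC.ord_mul v hx0 (inv_ne_zero hq0), Fermat.Agent.S55.DIC.ord_inv, hord]
    omega
  have h3 := (hv (x * ((q : ℕ) : L)⁻¹) (mul_ne_zero hx0 (inv_ne_zero hq0))).2 h2
  have h4 : ((x * ((q : ℕ) : L)⁻¹ : L) : Qb) = algebraMap L Qb x / (q : Qb) := by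
    show ((x * ((q : ℕ) : L)⁻¹ : L) : Qb) = (x : Qb) / (q : Qb)
    push_cast
    rw [div_eq_mul_inv]
  rwa [h4] at h3

/-- The version of W3b with `InertFixed`. -/
theorem Unram_exists_inertFixed_field (A : ValuationSubring Qb)
    {N : ℕ} {w : LaurentSeries Qb} (hw : w ∈ FF Qb N)
    (hfix : ∀ τ ∈ A.inertiaSubgroupIn ℚ, gal τ w = w) :
    ∃ L : IntermediateField ℚ Qb, FiniteDimensional ℚ L ∧ InertFixed A L ∧ BR3_DefOver N L w := by
  obtain ⟨L₀, hfin, hcoeff, hfixL⟩ := Fermat.Agent.GR.C.exists_coeffField hw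
  refine ⟨L₀, hfin, fun τ hτ x => hfixL τ (hfix τ hτ) x x.2, ?_⟩
  obtain ⟨w₀, hw₀⟩ := Fermat.Agent.GR.C.Root_exists_of_coeff_mem (K := L₀) w
    (fun m => ⟨⟨w.coeff m, hcoeff m⟩, rfl⟩)
  refine ⟨w₀, Fermat.Agent.GR.C.mem_FF_of_coeffMap_mem (Ω := Qb) ?_, hw₀⟩
  rw [hw₀]
  exact hw

/-- PIECE W3b. -/
theorem exists_unram_field {q : ℕ} (hq : q.Prime) (A : ValuationSubring Qb)
    (hA : A.LiesOverPrime q) {N : ℕ} {w : LaurentSeries Qb} (hw : w ∈ FF Qb N)
    (hfix : ∀ τ ∈ A.inertiaSubgroupIn ℚ, gal τ w = w) :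
    ∃ L : IntermediateField ℚ Qb, FiniteDimensional ℚ L ∧ UnramAt A q L ∧ BR3_DefOver N L w := by
  obtain ⟨L, hfin, hL, hdef⟩ := Unram_exists_inertFixed_field A hw hfix
  exact ⟨L, hfin, Unram_unramAt_of_inertFixed hq A hA L hL, hdef⟩

end Fermat.Agent.GT.W
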