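import Mathlib

/-!
# GT-W (S36 wiring), piece W4a : a congruence implication on a lattice survives flat base change

`Λ` a finitely generated abelian group, `𝓕` a set of endomorphisms, `n > 0`.
If `(∀ f ∈ 𝓕, f y ∈ nΛ) → c y ∈ nΛ` on `Λ`, the same implication holds on `𝒪 ⊗ Λ` for every flat
(= torsion free) ring `𝒪`.

Proof: `Q = Λ/nΛ` is finite, so `K = ⋂_{f ∈ 𝓕} ker (f | Q)` is cut out by finitely many `f`; for a finite
family `ker` commutes with the flat base change (`LinearMap.tensorKerEquiv`, see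
`GR/H/Rank.lean : Rank_finrank_sol_baseChange` for the pattern), `c` kills `𝒪 ⊗ K`, and
`𝒪 ⊗ Q = (𝒪 ⊗ Λ)/n` by right exactness.
-/

set_option autoImplicit false

open scoped TensorProduct

namespace Fermat.Agent.GT.W

/-- the case of one linear map `G : Λ → P`. -/
theorem Flat_one {Λ P : Type} [AddCommGroup Λ] [AddCommGroup P]
    (𝒪 : Type) [CommRing 𝒪] [Module.Flat ℤ 𝒪] (G : Λ →ₗ[ℤ] P) (n c : ℤ)
    (h : ∀ y : Λ, (∃ z : P, G y = n • z) → ∃ z : Λ, c • y = n • z)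
    (x : 𝒪 ⊗[ℤ] Λ) (z : 𝒪 ⊗[ℤ] P) (hx : G.lTensor 𝒪 x = n • z) :
    ∃ z : 𝒪 ⊗[ℤ] Λ, c • x = n • z := by
  let Ψ : (Λ × P) →ₗ[ℤ] P := G.coprod (-(n • LinearMap.id))
  have hex : Function.Exact (LinearMap.ker Ψ).subtype Ψ := LinearMap.exact_subtype_ker_map Ψ
  have hex' := Module.Flat.lTensor_exact 𝒪 hex
  let X : 𝒪 ⊗[ℤ] (Λ × P) :=
    (LinearMap.inl ℤ Λ P).lTensor 𝒪 x + (LinearMap.inr ℤ Λ P).lTensor 𝒪 z
  have hX : Ψ.lTensor 𝒪 X = 0 := by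
    have h1 : Ψ ∘ₗ LinearMap.inl ℤ Λ P = G := LinearMap.coprod_inl _ _
    have h2 : Ψ ∘ₗ LinearMap.inr ℤ Λ P = -(n • LinearMap.id) := LinearMap.coprod_inr _ _
    simp only [X, map_add, ← LinearMap.lTensor_comp_apply]
    rw [h1, h2, hx, LinearMap.lTensor_neg, LinearMap.lTensor_smul, LinearMap.lTensor_id]
    simp
  obtain ⟨Y, hY⟩ := (hex' X).mp hX
  have hxX : x = (LinearMap.fst ℤ Λ P).lTensor 𝒪 X := by
    simp only [X, map_add, ← LinearMap.lTensor_comp_apply]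
    rw [LinearMap.fst_comp_inl, LinearMap.fst_comp_inr, LinearMap.lTensor_id, LinearMap.lTensor_zero]
    simp
  have key : ∀ Y : 𝒪 ⊗[ℤ] (LinearMap.ker Ψ), ∃ z : 𝒪 ⊗[ℤ] Λ,
      c • ((LinearMap.fst ℤ Λ P ∘ₗ (LinearMap.ker Ψ).subtype).lTensor 𝒪 Y) = n • z := by
    intro Y
    induction Y using TensorProduct.induction_on with
    | zero => exact ⟨0, by simp⟩
    | tmul a k =>
      have hk : Ψ k.1 = 0 := k.2
      obtain ⟨w, hw⟩ := h k.1.1 ⟨k.1.2, by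
        have : G k.1.1 + -(n • k.1.2) = 0 := hk
        exact eq_neg_of_add_eq_zero_left this |>.trans (neg_neg _)⟩
      refine ⟨a ⊗ₜ w, ?_⟩
      rw [LinearMap.lTensor_tmul, ← TensorProduct.tmul_smul, ← TensorProduct.tmul_smul, ← hw]
      rfl
    | add Y₁ Y₂ h₁ h₂ =>
      obtain ⟨z₁, hz₁⟩ := h₁
      obtain ⟨z₂, hz₂⟩ := h₂
      exact ⟨z₁ + z₂, by rw [map_add, smul_add, smul_add, hz₁, hz₂]⟩
  rw [hxX, ← hY, ← LinearMap.lTensor_comp_apply]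
  exact key Y

/-- reduction to a finite family: `Λ / nΛ` is finite. -/
theorem Flat_finite {Λ : Type} [AddCommGroup Λ] [Module.Finite ℤ Λ]
    (𝓕 : Set (Module.End ℤ Λ)) (n : ℕ) (hn : 0 < n) :
    ∃ s : Finset (Module.End ℤ Λ), (∀ f ∈ s, f ∈ 𝓕) ∧
      ∀ y : Λ, (∀ f ∈ s, ∃ z : Λ, f y = (n : ℤ) • z) →
        ∀ f ∈ 𝓕, ∃ z : Λ, f y = (n : ℤ) • z := by
  classical
  let N : Submodule ℤ Λ := LinearMap.range ((n : ℤ) • (LinearMap.id : Λ →ₗ[ℤ] Λ))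
  have hN : ∀ y, y ∈ N ↔ ∃ z, y = (n : ℤ) • z := by
    intro y
    constructor
    · rintro ⟨z, rfl⟩
      exact ⟨z, rfl⟩
    · rintro ⟨z, rfl⟩
      exact ⟨z, rfl⟩
  have hfin : Finite (Λ ⧸ N) := by
    apply Module.finite_of_fg_torsion
    intro q
    refine ⟨⟨(n : ℤ), mem_nonZeroDivisors_of_ne_zero (by exact_mod_cast hn.ne')⟩, ?_⟩
    induction q using Submodule.Quotient.induction_on with
    | H y =>
      show (n : ℤ) • (Submodule.Quotient.mk y : Λ ⧸ N) = 0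
      rw [← Submodule.Quotient.mk_smul, Submodule.Quotient.mk_eq_zero]
      exact ⟨y, rfl⟩
  have hft : Fintype (Λ ⧸ N) := Fintype.ofFinite _
  let Pq : Λ ⧸ N → Prop := fun q => ∃ f ∈ 𝓕, f (Quotient.out q) ∉ N
  let φ : Λ ⧸ N → Module.End ℤ Λ := fun q => if hq : Pq q then hq.choose else 0
  have hφ : ∀ q, Pq q → φ q ∈ 𝓕 ∧ φ q (Quotient.out q) ∉ N := by
    intro q hq
    have : φ q = hq.choose := dif_pos hq
    rw [this]
    exact hq.choose_spec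
  -- endomorphisms preserve `N`
  have hfN : ∀ (f : Module.End ℤ Λ) (y y' : Λ), y - y' ∈ N → f y ∈ N → f y' ∈ N := by
    intro f y y' hyy hy
    obtain ⟨w, hw⟩ := (hN _).mp hyy
    have e : f y' = f y - (n : ℤ) • f w := by
      rw [← map_smul, ← hw, map_sub]
      abel
    rw [e]
    exact N.sub_mem hy ((hN _).mpr ⟨_, rfl⟩)
  refine ⟨(Finset.univ.filter Pq).image φ, ?_, ?_⟩
  · intro f hf
    obtain ⟨q, hq, rfl⟩ := Finset.mem_image.mp hf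
    exact (hφ q (Finset.mem_filter.mp hq).2).1
  · intro y hy f hf
    by_contra hcon
    let q : Λ ⧸ N := Submodule.Quotient.mk y
    have hout : Quotient.out q - y ∈ N := by
      rw [← Submodule.Quotient.eq]
      exact Quotient.out_eq q
    have hout' : y - Quotient.out q ∈ N := by
      have := N.neg_mem hout
      rwa [neg_sub] at this
    have hPq : Pq q := ⟨f, hf, fun hmem => hcon ((hN _).mp (hfN f _ _ hout hmem))⟩
    obtain ⟨-, h2⟩ := hφ q hPq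
    apply h2
    apply hfN (φ q) y _ hout'
    rw [hN]
    exact hy _ (Finset.mem_image.mpr ⟨q, Finset.mem_filter.mpr ⟨Finset.mem_univ _, hPq⟩, rfl⟩)

/-- PIECE W4a. -/
theorem cong_imp_baseChange {Λ : Type} [AddCommGroup Λ] [Module.Finite ℤ Λ]
    (𝒪 : Type) [CommRing 𝒪] [Module.Flat ℤ 𝒪] (𝓕 : Set (Module.End ℤ Λ)) (n c : ℕ) (hn : 0 < n)
    (h : ∀ y : Λ, (∀ f ∈ 𝓕, ∃ z : Λ, f y = (n : ℤ) • z) → ∃ z : Λ, (c : ℤ) • y = (n : ℤ) • z)
    (x : 𝒪 ⊗[ℤ] Λ) (hx : ∀ f ∈ 𝓕, ∃ z : 𝒪 ⊗[ℤ] Λ, f.baseChange 𝒪 x = (n : ℤ) • z) :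
    ∃ z : 𝒪 ⊗[ℤ] Λ, (c : ℤ) • x = (n : ℤ) • z := by
  classical
  obtain ⟨s, hs, hs'⟩ := Flat_finite 𝓕 n hn
  choose! z hz using hx
  let G : Λ →ₗ[ℤ] (s → Λ) := LinearMap.pi fun f => f.1
  refine Flat_one 𝒪 G n c ?_ x
    (∑ f : s, (LinearMap.single ℤ (fun _ : s => Λ) f).lTensor 𝒪 (z f.1)) ?_
  · rintro y ⟨w, hw⟩
    exact h y (hs' y fun f hf => ⟨w ⟨f, hf⟩, congrFun hw ⟨f, hf⟩⟩)
  · have hG : G = ∑ f : s, (LinearMap.single ℤ (fun _ : s => Λ) f) ∘ₗ f.1 := by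
      ext y j
      simp [G, LinearMap.sum_apply, Finset.sum_apply, Pi.single_apply]
    have e : G.lTensor 𝒪 =
        ∑ f : s, ((LinearMap.single ℤ (fun _ : s => Λ) f) ∘ₗ f.1).lTensor 𝒪 := by
      rw [hG, ← LinearMap.coe_lTensorHom, map_sum]
    rw [e, LinearMap.sum_apply, Finset.smul_sum]
    refine Finset.sum_congr rfl fun f _ => ?_
    rw [LinearMap.lTensor_comp_apply, ← map_smul, ← hz f.1 (hs f.1 f.2)]
    rfl

end Fermat.Agent.GT.W
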