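import Mathlib

/-!
# GT-W (S36 wiring), piece W0 : Kolchin in rank two

A group acting on a free module of rank two over a domain such that every element has
characteristic polynomial `(X - 1)²` has a nonzero fixed vector.
-/

set_option autoImplicit false

open Polynomial

namespace Fermat.Agent.GT.W

/-- matrix form of the key identity: `N₀ = [[a,b],[c,-a]]`, `N = [[x,y],[z,-x]]`, both of determinant `0`,
`tr (N₀ N) = 0`.  Then `N N₀ = 0`. -/
theorem Kolchin_key {R : Type*} [CommRing R] [IsDomain R] (N₀ N : Matrix (Fin 2) (Fin 2) R)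
    (h1 : N₀.trace = 0) (h2 : N₀.det = 0) (h3 : N.trace = 0) (h4 : N.det = 0)
    (h5 : (N₀ * N).trace = 0) : N * N₀ = 0 := by
  rw [Matrix.trace_fin_two] at h1 h3 h5
  rw [Matrix.det_fin_two] at h2 h4
  simp only [Matrix.mul_apply, Fin.sum_univ_two] at h5
  set a := N₀ 0 0
  set b := N₀ 0 1
  set c := N₀ 1 0
  set d := N₀ 1 1
  set x := N 0 0
  set y := N 0 1
  set z := N 1 0
  set t := N 1 1
  have hd : d = -a := by linear_combination h1
  have ht : t = -x := by linear_combination h3
  rw [hd] at h2 h5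
  rw [ht] at h4 h5
  have hA : a ^ 2 + b * c = 0 := by linear_combination -h2
  have hX : x ^ 2 + y * z = 0 := by linear_combination -h4
  have hT : z * b + 2 * a * x + y * c = 0 := by linear_combination h5
  ext i j
  fin_cases i <;> fin_cases j <;>
    simp only [Matrix.mul_apply, Fin.sum_univ_two, Matrix.zero_apply, Fin.zero_eta, Fin.mk_one,
      Fin.isValue]
  · change x * a + y * c = 0
    linear_combination (exp := 2) a ^ 2 * hX - y * z * hA + y * c * hT
  · change x * b + y * d = 0
    rw [hd]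
    linear_combination (exp := 2) b ^ 2 * hX + y ^ 2 * hA - y * b * hT
  · change z * a + t * c = 0
    rw [ht]
    linear_combination (exp := 2) z ^ 2 * hA + c ^ 2 * hX - z * c * hT
  · change z * b + t * d = 0
    rw [hd, ht]
    linear_combination (exp := 2) a ^ 2 * hX - y * z * hA + z * b * hT

/-- trace and determinant from the characteristic polynomial `(X - 1) ^ 2`. -/
theorem Kolchin_trace_det {R : Type*} [CommRing R] [Nontrivial R] (M : Matrix (Fin 2) (Fin 2) R)
    (h : M.charpoly = (X - 1) ^ 2) : M.trace = 2 ∧ M.det = 1 := by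
  rw [Matrix.charpoly_fin_two] at h
  have h0 := congrArg (fun p : R[X] => p.coeff 0) h
  have h1 := congrArg (fun p : R[X] => p.coeff 1) h
  have e : ((X : R[X]) - 1) ^ 2 = X ^ 2 - C 2 * X + C 1 := by
    rw [map_one, map_ofNat]; ring
  simp only [e] at h0 h1
  simp only [coeff_add, coeff_sub, coeff_X_pow, coeff_C_mul, coeff_X_zero, coeff_X_one,
    coeff_C_zero, coeff_C_succ, mul_zero, mul_one] at h0 h1
  norm_num at h0 h1
  exact ⟨h1, h0⟩

/-- PIECE W0. -/
theorem exists_fixed_of_unipotent {R V G : Type*} [CommRing R] [IsDomain R] [AddCommGroup V]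
    [Module R V] [Module.Free R V] [Module.Finite R V] (hV : Module.finrank R V = 2) [Group G]
    (r : G →* Module.End R V) (H : Subgroup G)
    (h : ∀ σ ∈ H, LinearMap.charpoly (r σ) = (X - 1) ^ 2) :
    ∃ v : V, v ≠ 0 ∧ ∀ σ ∈ H, r σ v = v := by
  classical
  let b : Module.Basis (Fin 2) R V := Module.finBasisOfFinrankEq R V hV
  let Φ : Module.End R V ≃ₐ[R] Matrix (Fin 2) (Fin 2) R := LinearMap.toMatrixAlgEquiv b
  have hΦ : ∀ f : Module.End R V, (Φ f).charpoly = LinearMap.charpoly f := fun f =>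
    LinearMap.charpoly_toMatrix f b
  have htd : ∀ σ ∈ H, (Φ (r σ)).trace = 2 ∧ (Φ (r σ)).det = 1 := fun σ hσ =>
    Kolchin_trace_det _ (by rw [hΦ, h σ hσ])
  have hN : ∀ σ ∈ H, (Φ (r σ - 1)).trace = 0 ∧ (Φ (r σ - 1)).det = 0 := by
    intro σ hσ
    obtain ⟨ht, hd⟩ := htd σ hσ
    rw [map_sub, map_one]
    rw [Matrix.trace_fin_two] at ht
    rw [Matrix.det_fin_two] at hd
    constructor
    · rw [Matrix.trace_fin_two]
      simp only [Matrix.sub_apply, Matrix.one_apply_eq]
      linear_combination ht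
    · rw [Matrix.det_fin_two]
      simp only [Matrix.sub_apply, Matrix.one_apply_eq, Matrix.one_apply_ne (zero_ne_one),
        Matrix.one_apply_ne (one_ne_zero), ne_eq, not_false_eq_true, sub_zero]
      linear_combination hd - ht
  by_cases hall : ∀ σ ∈ H, r σ - 1 = 0
  · refine ⟨b 0, b.ne_zero 0, fun σ hσ => ?_⟩
    have := hall σ hσ
    rw [sub_eq_zero] at this
    rw [this]; rfl
  · push Not at hall
    obtain ⟨s₀, hs₀, hne⟩ := hall
    have hex : ∃ j, (r s₀ - 1) (b j) ≠ 0 := by
      by_contra hcon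
      push Not at hcon
      exact hne (b.ext fun j => by rw [hcon j]; rfl)
    obtain ⟨j, hj⟩ := hex
    refine ⟨(r s₀ - 1) (b j), hj, fun t ht => ?_⟩
    have hprod : (Φ (r s₀ - 1) * Φ (r t - 1)).trace = 0 := by
      have h1 := (htd (s₀ * t) (H.mul_mem hs₀ ht)).1
      have e : r (s₀ * t) = 1 + (r s₀ - 1) + (r t - 1) + (r s₀ - 1) * (r t - 1) := by
        rw [map_mul]; noncomm_ring
      rw [e, map_add, map_add, map_add, map_one, map_mul, Matrix.trace_add, Matrix.trace_add,
        Matrix.trace_add, (hN s₀ hs₀).1, (hN t ht).1, Matrix.trace_one] at h1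
      simp only [Fintype.card_fin, Nat.cast_ofNat, add_zero] at h1
      linear_combination h1
    have hkey := Kolchin_key (Φ (r s₀ - 1)) (Φ (r t - 1)) (hN s₀ hs₀).1 (hN s₀ hs₀).2
      (hN t ht).1 (hN t ht).2 hprod
    rw [← map_mul, map_eq_zero_iff Φ Φ.injective] at hkey
    have h2 : ((r t - 1) * (r s₀ - 1)) (b j) = 0 := by rw [hkey]; rfl
    rw [Module.End.mul_apply, LinearMap.sub_apply, Module.End.one_apply, sub_eq_zero] at h2
    exact h2

end Fermat.Agent.GT.W
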