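import Fermat.Agent.GT.W.Rep
import Fermat.Prelude.Def_GaloisRep_LocalConditions
import Fermat.Agent.GT.W.Kolchin
import Fermat.Agent.GT.W.Flat

/-!
# GT-W (S36 wiring), piece W4c : the abstract argument

`V = eigenSub lam ⊆ 𝒪 ⊗ Λ`.  If the operators in `𝓕` (in the application: `U_q` and the trace `tr`)
kill `V`, and if on every finite level an inertia invariant class killed by `𝓕` is killed by `c`,
then `V^I = 0`, hence (Kolchin) `ρ` is not unipotent on inertia.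
-/

set_option autoImplicit false

open Polynomial
open scoped TensorProduct

namespace Fermat.Agent.GT.W

open Fermat.Agent.GR.H

variable {N : ℕ} [NeZero N] {p : ℕ}

/-- PIECE W4c. -/
theorem not_isUnipotentOnInertiaAt [Fact p.Prime]
    (D : TateData N p) (𝒪 : Type) [CommRing 𝒪] [IsDomain 𝒪] [IsDiscreteValuationRing 𝒪]
    [IsAdicComplete (IsLocalRing.maximalIdeal 𝒪) 𝒪] [CharZero 𝒪]
    (hp : (p : 𝒪) ∈ IsLocalRing.maximalIdeal 𝒪) (lam : HeckeFull N →+* 𝒪)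
    (B : BigRep D 𝒪) (hB : ∀ σ k, Limit_Cong (p : 𝒪) k (B.r σ) ((D.gal k σ).baseChange 𝒪))
    (ρ : GaloisRepAdic 𝒪) (ι : ρ.V →ₗ[𝒪] 𝒪 ⊗[ℤ] D.Λ)
    (hinj : Function.Injective ι) (hrange : LinearMap.range ι = eigenSub D.hecke 𝒪 lam)
    (hι : ∀ σ v, ι (ρ.ρ σ v) = B.r σ (ι v))
    (q : ℕ) (A : ValuationSubring (AlgebraicClosure ℚ)) (hA : A.LiesOverPrime q)
    (𝓕 : Set (Module.End ℤ D.Λ))
    (h𝓕 : ∀ f ∈ 𝓕, ∀ x ∈ eigenSub D.hecke 𝒪 lam, f.baseChange 𝒪 x = 0)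
    (c : ℕ) (hc : 0 < c)
    (car : ∀ (k : ℕ) (y : D.Λ),
      (∀ τ ∈ A.inertiaSubgroupIn ℚ, ∃ z : D.Λ, D.gal k τ y - y = ((p ^ k : ℕ) : ℤ) • z) →
      (∀ f ∈ 𝓕, ∃ z : D.Λ, f y = ((p ^ k : ℕ) : ℤ) • z) →
      ∃ z : D.Λ, (c : ℤ) • y = ((p ^ k : ℕ) : ℤ) • z) :
    ¬ ρ.IsUnipotentOnInertiaAt q := by
  intro hun
  have hpp : p.Prime := Fact.out
  obtain ⟨v, hv0, hv⟩ := exists_fixed_of_unipotent ρ.finrank_eq ρ.ρ (A.inertiaSubgroupIn ℚ)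
    (hun A hA)
  have hx : ι v ∈ eigenSub D.hecke 𝒪 lam := hrange ▸ LinearMap.mem_range_self ι v
  have hx0 : ι v ≠ 0 := fun h => hv0 (hinj (by rw [h, map_zero]))
  have hfix : ∀ σ ∈ A.inertiaSubgroupIn ℚ, B.r σ (ι v) = ι v := fun σ hσ => by
    rw [← hι, hv σ hσ]
  have hflat : Module.Flat ℤ 𝒪 := by
    rw [Module.Flat.flat_iff_torsion_eq_bot_of_isBezout]
    exact Submodule.isTorsionFree_iff_torsion_eq_bot.mp inferInstance
  have hcast : ∀ (m : ℕ) (z : 𝒪 ⊗[ℤ] D.Λ), ((m : ℕ) : ℤ) • z = (m : 𝒪) • z := by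
    intro m z
    rw [natCast_zsmul, Nat.cast_smul_eq_nsmul]
  have hk : ∀ k : ℕ, ∃ z : 𝒪 ⊗[ℤ] D.Λ, (c : ℤ) • ι v = ((p ^ k : ℕ) : ℤ) • z := by
    intro k
    refine cong_imp_baseChange 𝒪
      ({f | ∃ τ ∈ A.inertiaSubgroupIn ℚ, f = D.gal k τ - 1} ∪ 𝓕) (p ^ k) c
      (pow_pos hpp.pos k) ?_ (ι v) ?_
    · intro y hy
      refine car k y (fun τ hτ => ?_) (fun f hf => hy f (Or.inr hf))
      obtain ⟨z, hz⟩ := hy (D.gal k τ - 1) (Or.inl ⟨τ, hτ, rfl⟩)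
      exact ⟨z, by simpa using hz⟩
    · rintro f (⟨τ, hτ, rfl⟩ | hf)
      · obtain ⟨H, hH⟩ := hB τ k
        have h1 := LinearMap.congr_fun hH (ι v)
        rw [LinearMap.sub_apply, hfix τ hτ, LinearMap.smul_apply] at h1
        refine ⟨-H (ι v), ?_⟩
        rw [LinearMap.baseChange_sub, LinearMap.baseChange_one, LinearMap.sub_apply,
          Module.End.one_apply, hcast, smul_neg, Nat.cast_pow, ← h1]
        abel
      · exact ⟨0, by rw [h𝓕 f hf _ hx, smul_zero]⟩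
  have hcomplete : IsAdicComplete (IsLocalRing.maximalIdeal 𝒪) (𝒪 ⊗[ℤ] D.Λ) :=
    IsAdicComplete.of_module_finite _ _
  have hzero : (c : ℤ) • ι v = 0 := by
    refine Limit_eq_of_forall_cong (IsLocalRing.maximalIdeal 𝒪) hp fun k => ?_
    obtain ⟨z, hz⟩ := hk k
    exact ⟨z, by rw [sub_zero, hz, hcast, Nat.cast_pow]⟩
  rw [hcast] at hzero
  rcases smul_eq_zero.mp hzero with h | h
  · exact hc.ne' (by exact_mod_cast h)
  · exact hx0 h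

end Fermat.Agent.GT.W
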