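import Fermat.Agent.S49.Normalize
import Fermat.Agent.S22
import Fermat.Prelude.Def_CuspForm_Newforms

/-!
# GT-W (S36 wiring), piece W1, part A

`exists_normalized_of_anemic` : a nonzero eigenvector `h` of all `T_ℓ`, `ℓ ∤ N`, produces a normalized
eigenform with the same good eigenvalues.  (The space `W` of all such `h` is nonzero and stable under the
commuting operators `U_q`, `q ∣ N`, which are integral (`S22.result`); take successively eigenvectors;
then `S49.exists_normalized`.)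
-/

set_option autoImplicit false

open CongruenceSubgroup ModularFormClass UpperHalfPlane

namespace Fermat.Agent.GT.W

section Abstract

variable {K V : Type*} [Field K] [IsAlgClosed K] [AddCommGroup V] [Module K V]

omit [IsAlgClosed K] in
theorem anemic_aeval_mem (W : Submodule K V) (u : Module.End K V) (hu : ∀ w ∈ W, u w ∈ W)
    (Q : Polynomial K) : ∀ w ∈ W, Polynomial.aeval u Q w ∈ W := by
  induction Q using Polynomial.induction_on with
  | C a =>
    intro w hw
    simpa [Polynomial.aeval_C, Module.algebraMap_end_apply] using W.smul_mem a hw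
  | add p q hp hq =>
    intro w hw
    rw [map_add, LinearMap.add_apply]
    exact W.add_mem (hp w hw) (hq w hw)
  | monomial n a ih =>
    intro w hw
    rw [pow_succ, ← mul_assoc, map_mul, Polynomial.aeval_X, Module.End.mul_apply]
    exact ih (u w) (hu w hw)

theorem anemic_exists_eigenvector_aux (W : Submodule K V) (u : Module.End K V)
    (hu : ∀ w ∈ W, u w ∈ W) :
    ∀ (n : ℕ) (P : Polynomial K), P ≠ 0 → P.natDegree = n → ∀ w ∈ W, w ≠ 0 →
      Polynomial.aeval u P w = 0 → ∃ μ : K, ∃ w ∈ W, w ≠ 0 ∧ u w = μ • w := by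
  intro n
  induction n with
  | zero =>
    intro P hP0 hdeg w _ hw0 hPw
    exfalso
    rw [Polynomial.eq_C_of_natDegree_eq_zero hdeg, Polynomial.aeval_C,
      Module.algebraMap_end_apply] at hPw
    rcases smul_eq_zero.1 hPw with h | h
    · apply hP0
      rw [Polynomial.eq_C_of_natDegree_eq_zero hdeg, h, map_zero]
    · exact hw0 h
  | succ n ih =>
    intro P hP0 hdeg w hw hw0 hPw
    have hdeg' : P.degree ≠ 0 := by
      intro h
      have h2 : P.natDegree = 0 := Polynomial.natDegree_eq_of_degree_eq_some h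
      omega
    obtain ⟨r, hr⟩ := IsAlgClosed.exists_root P hdeg'
    obtain ⟨Q, hQ⟩ := Polynomial.dvd_iff_isRoot.2 hr
    have hQ0 : Q ≠ 0 := by
      rintro rfl
      exact hP0 (by rw [hQ, mul_zero])
    have hQdeg : Q.natDegree = n := by
      have := congrArg Polynomial.natDegree hQ
      rw [Polynomial.natDegree_mul (Polynomial.X_sub_C_ne_zero r) hQ0,
        Polynomial.natDegree_X_sub_C] at this
      omega
    by_cases hw' : Polynomial.aeval u Q w = 0
    · exact ih Q hQ0 hQdeg w hw hw0 hw'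
    · refine ⟨r, Polynomial.aeval u Q w, anemic_aeval_mem W u hu Q w hw, hw', ?_⟩
      rw [hQ, map_mul, Module.End.mul_apply, map_sub, Polynomial.aeval_X, Polynomial.aeval_C,
        LinearMap.sub_apply, Module.algebraMap_end_apply, sub_eq_zero] at hPw
      exact hPw

theorem anemic_exists_eigenvector (W : Submodule K V) (hW : W ≠ ⊥) (u : Module.End K V)
    (hu : ∀ w ∈ W, u w ∈ W) (hint : IsIntegral K u) :
    ∃ μ : K, ∃ w ∈ W, w ≠ 0 ∧ u w = μ • w := by
  obtain ⟨P, hP, hPu⟩ := hint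
  obtain ⟨w, hw, hw0⟩ := Submodule.exists_mem_ne_zero_of_ne_bot hW
  refine anemic_exists_eigenvector_aux W u hu _ P hP.ne_zero rfl w hw hw0 ?_
  have : Polynomial.aeval u P = 0 := hPu
  rw [this, LinearMap.zero_apply]

theorem anemic_exists_common_eigenvector {ι : Type*} (u : ι → Module.End K V)
    (hcomm : ∀ i j, Commute (u i) (u j)) (hint : ∀ i, IsIntegral K (u i)) (s : Finset ι) :
    ∀ W : Submodule K V, W ≠ ⊥ → (∀ i, ∀ w ∈ W, u i w ∈ W) →
      ∃ μ : ι → K, ∃ w ∈ W, w ≠ 0 ∧ ∀ i ∈ s, u i w = μ i • w := by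
  classical
  induction s using Finset.induction_on with
  | empty =>
    intro W hW _
    obtain ⟨w, hw, hw0⟩ := Submodule.exists_mem_ne_zero_of_ne_bot hW
    exact ⟨fun _ => 0, w, hw, hw0, by simp⟩
  | insert i s his ih =>
    intro W hW hu
    obtain ⟨μi, w0, hw0, hw00, hw0e⟩ := anemic_exists_eigenvector W hW (u i) (hu i) (hint i)
    let W' : Submodule K V := W ⊓ LinearMap.ker (u i - μi • (1 : Module.End K V))
    have hmem : ∀ w, w ∈ W' ↔ w ∈ W ∧ u i w = μi • w := by
      intro w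
      simp only [W', Submodule.mem_inf, LinearMap.mem_ker, LinearMap.sub_apply,
        LinearMap.smul_apply, Module.End.one_apply, sub_eq_zero]
    have hW' : W' ≠ ⊥ := by
      intro h
      have : w0 ∈ W' := (hmem w0).2 ⟨hw0, hw0e⟩
      rw [h, Submodule.mem_bot] at this
      exact hw00 this
    have hu' : ∀ j, ∀ w ∈ W', u j w ∈ W' := by
      intro j w hw
      obtain ⟨h1, h2⟩ := (hmem w).1 hw
      refine (hmem _).2 ⟨hu j w h1, ?_⟩
      have := congrArg (fun f : Module.End K V => f w) (hcomm i j).eq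
      simp only [Module.End.mul_apply] at this
      rw [this, h2, map_smul]
    obtain ⟨μ, w, hw, hw0', hwe⟩ := ih W' hW' hu'
    obtain ⟨h1, h2⟩ := (hmem w).1 hw
    refine ⟨Function.update μ i μi, w, h1, hw0', fun j hj => ?_⟩
    rcases Finset.mem_insert.1 hj with rfl | hj
    · rw [Function.update_self]
      exact h2
    · have : j ≠ i := fun h => his (h ▸ hj)
      rw [Function.update_of_ne this]
      exact hwe j hj

end Abstract

theorem anemic_isIntegral_heckeULin {N : ℕ} [NeZero N] {q : ℕ} (hq : q.Prime) (hqN : q ∣ N) :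
    IsIntegral ℂ (CuspForm.heckeULin 2 hqN : Module.End ℂ (CuspForm (Gamma0 N) 2)) := by
  have : Module.Finite ℤ (CuspForm.heckeAlgebra N 2 ∅) := Fermat.Agent.S22.result N 2 ∅
  have h1 : IsIntegral ℤ (CuspForm.heckeAlgebra.U (k := 2) (S := ∅) hq hqN (by simp)) :=
    IsIntegral.of_finite ℤ _
  have h2 : IsIntegral ℤ (CuspForm.heckeULin 2 hqN : Module.End ℂ (CuspForm (Gamma0 N) 2)) :=
    h1.map (CuspForm.heckeAlgebra N 2 ∅).val
  exact h2.tower_top

theorem exists_normalized_of_anemic {N : ℕ} [NeZero N] (h : CuspForm (Gamma0 N) 2) (h0 : h ≠ 0)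
    (a : ℕ → ℂ)
    (hT : ∀ (ℓ : ℕ) (hℓ : ℓ.Prime) (hℓN : ¬ ℓ ∣ N), CuspForm.heckeTLin 2 hℓ hℓN h = a ℓ • h) :
    ∃ f : CuspForm (Gamma0 N) 2, f.IsNormalizedEigenform ∧
      ∀ ℓ : ℕ, ℓ.Prime → ¬ ℓ ∣ N → qCoeff f ℓ = a ℓ := by
  classical
  let W : Submodule ℂ (CuspForm (Gamma0 N) 2) :=
    { carrier := {g | ∀ (ℓ : ℕ) (hℓ : ℓ.Prime) (hℓN : ¬ ℓ ∣ N),
        CuspForm.heckeTLin 2 hℓ hℓN g = a ℓ • g}
      add_mem' := by
        intro x y hx hy ℓ hℓ hℓN
        rw [map_add, hx ℓ hℓ hℓN, hy ℓ hℓ hℓN, smul_add]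
      zero_mem' := by
        intro ℓ hℓ hℓN
        rw [map_zero, smul_zero]
      smul_mem' := by
        intro c x hx ℓ hℓ hℓN
        rw [map_smul, hx ℓ hℓ hℓN, smul_comm] }
  have hW : W ≠ ⊥ := by
    intro hb
    have : h ∈ W := hT
    rw [hb, Submodule.mem_bot] at this
    exact h0 this
  let u : {q // q ∈ N.primeFactors} → Module.End ℂ (CuspForm (Gamma0 N) 2) := fun q =>
    CuspForm.heckeULin 2 (Nat.dvd_of_mem_primeFactors q.2)
  obtain ⟨μ, g, hgW, hg0, hgU⟩ := anemic_exists_common_eigenvector u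
    (fun i j => CuspForm.heckeULin_comm 2 _ _)
    (fun i => anemic_isIntegral_heckeULin (Nat.prime_of_mem_primeFactors i.2) _) Finset.univ W hW
    (by
      intro i w hw ℓ hℓ hℓN
      have := congrArg (fun f : Module.End ℂ (CuspForm (Gamma0 N) 2) => f w)
        (CuspForm.heckeTLin_heckeULin_comm 2 hℓ hℓN (Nat.dvd_of_mem_primeFactors i.2)).eq
      simp only [Module.End.mul_apply] at this
      change CuspForm.heckeTLin 2 hℓ hℓN (CuspForm.heckeULin 2 _ w) = a ℓ • CuspForm.heckeULin 2 _ w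
      rw [this, hw ℓ hℓ hℓN, map_smul])
  let lam : ℕ → ℂ := fun ℓ => if hl : ℓ ∈ N.primeFactors then μ ⟨ℓ, hl⟩ else a ℓ
  have hlam : ∀ ℓ, ¬ ℓ ∣ N → lam ℓ = a ℓ := by
    intro ℓ hℓN
    have : ℓ ∉ N.primeFactors := fun hl => hℓN (Nat.dvd_of_mem_primeFactors hl)
    simp only [lam, dif_neg this]
  obtain ⟨f, hf, hfl⟩ := Fermat.Agent.S49.exists_normalized g hg0 lam
    (by
      intro ℓ hℓ hℓN
      rw [hlam ℓ hℓN]
      exact hgW ℓ hℓ hℓN)
    (by
      intro q hq hqN
      have hm : q ∈ N.primeFactors := Nat.mem_primeFactors.2 ⟨hq, hqN, NeZero.ne N⟩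
      simp only [lam, dif_pos hm]
      exact hgU ⟨q, hm⟩ (Finset.mem_univ _))
  exact ⟨f, hf, fun ℓ hℓ hℓN => by rw [hfl ℓ hℓ, hlam ℓ hℓN]⟩

end Fermat.Agent.GT.W
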