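import Fermat.Agent.GT.EMB.Norm1

/-!
# GT-W (S36 wiring), piece W3a : a function of level `q M0` which is an `n`-th power at level `q² M0` is an
`n`-th power at level `q M0` (`q ∤ n`)

`v = z^n`, `z ∈ F_{q² M0}`.  Then `v^q = normFF v = (normFF z)^n` (`Algebra.norm_algebraMap`, the degree is `q` by
`EMB.relfinrank_FF_sq`).  With `a q + b n = 1` : `v = ((normFF z)^a * v^b)^n` (integer exponents).
-/

set_option autoImplicit false
set_option synthInstance.maxHeartbeats 400000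

open ModularCurve

namespace Fermat.Agent.GT.W

open Fermat.Agent.GR Fermat.Agent.GR.E

/-- ABSTRACT: an element of `E` which is an `n`-th power in `E'` is an `n`-th power in `E` when
`[E' : E]` is prime to `n`. -/
theorem Lower_abstract {K M : Type*} [Field K] [Field M] [Algebra K M]
    {E E' : IntermediateField K M} (hle : E ≤ E') {d n : ℕ} (hdeg : E.relfinrank E' = d)
    (hcop : Nat.Coprime d n) {v z : M} (hv : v ∈ E) (hz : z ∈ E') (hz0 : z ≠ 0)
    (h : v = z ^ n) : ∃ y ∈ E, y ≠ 0 ∧ v = y ^ n := by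
  rcases Nat.eq_zero_or_pos n with hn | hn
  · subst hn
    exact ⟨1, E.one_mem, one_ne_zero, by rw [h, pow_zero, pow_zero]⟩
  let _ : Algebra E E' := (IntermediateField.inclusion hle).toRingHom.toAlgebra
  let e : E' ≃ₗ[E] IntermediateField.extendScalars hle :=
    { toFun := fun x => ⟨x.1, x.2⟩
      invFun := fun x => ⟨x.1, x.2⟩
      map_add' := fun x y => rfl
      map_smul' := fun c x => rfl
      left_inv := fun x => rfl
      right_inv := fun x => rfl }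
  have hfr : Module.finrank E E' = d := by
    rw [e.finrank_eq, ← IntermediateField.relfinrank_eq_finrank_of_le hle, hdeg]
  have hv0 : v ≠ 0 := by
    rw [h]
    exact pow_ne_zero n hz0
  -- the norm of `z`
  set w : E := Algebra.norm E (⟨z, hz⟩ : E') with hw
  have h1 : algebraMap E E' ⟨v, hv⟩ = (⟨z, hz⟩ : E') ^ n := Subtype.ext h
  have h2 : (⟨v, hv⟩ : E) ^ d = w ^ n := by
    rw [hw, ← map_pow, ← h1, Algebra.norm_algebraMap, hfr]
  have h3 : v ^ d = (w : M) ^ n := congrArg (fun x : E => (x : M)) h2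
  have hw0 : (w : M) ≠ 0 := by
    intro h0
    rw [h0, zero_pow hn.ne'] at h3
    exact pow_ne_zero d hv0 h3
  -- Bezout
  have hbez : (d : ℤ) * Nat.gcdA d n + (n : ℤ) * Nat.gcdB d n = 1 := by
    have := Nat.gcd_eq_gcd_ab d n
    rw [hcop.gcd_eq_one] at this
    exact_mod_cast this.symm
  refine ⟨(w : M) ^ (Nat.gcdA d n) * v ^ (Nat.gcdB d n),
    E.mul_mem (zpow_mem w.2 _) (zpow_mem hv _),
    mul_ne_zero (zpow_ne_zero _ hw0) (zpow_ne_zero _ hv0), ?_⟩
  calc v = v ^ ((d : ℤ) * Nat.gcdA d n + (n : ℤ) * Nat.gcdB d n) := by rw [hbez, zpow_one]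
    _ = (v ^ d) ^ (Nat.gcdA d n) * (v ^ (Nat.gcdB d n)) ^ n := by
        rw [zpow_add₀ hv0, zpow_mul, zpow_natCast, mul_comm (n : ℤ), zpow_mul, zpow_natCast]
    _ = ((w : M) ^ (Nat.gcdA d n) * v ^ (Nat.gcdB d n)) ^ n := by
        rw [h3, mul_pow, ← zpow_natCast ((w : M) ^ Nat.gcdA d n) n, ← zpow_mul,
          mul_comm (Nat.gcdA d n) (n : ℤ), zpow_mul, zpow_natCast]

/-- PIECE W3a. -/
theorem kummerEquiv_lower {q M0 : ℕ} (hq : q.Prime) (hM0 : M0 ≠ 0) (hqM : ¬ q ∣ M0) {n : ℕ}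
    (hn : ¬ q ∣ n) {v : LaurentSeries Qb} (hv : v ∈ FF Qb (q * M0))
    (h : KummerEquiv (q ^ 2 * M0) n 1 v) : KummerEquiv (q * M0) n 1 v := by
  obtain ⟨z, hz, hz0, hvz⟩ := h
  rw [one_mul] at hvz
  obtain ⟨y, hy, hy0, hvy⟩ := Lower_abstract
    (BR8_FF_le Qb (⟨q, by ring⟩ : q * M0 ∣ q ^ 2 * M0)) (EMB.relfinrank_FF_sq hq hM0 hqM)
    ((Nat.Prime.coprime_iff_not_dvd hq).2 hn) hv hz hz0 hvz
  exact ⟨y, hy, hy0, by rw [one_mul]; exact hvy⟩

end Fermat.Agent.GT.W
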