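import Fermat.Agent.GT.W.NormChar
import Fermat.Agent.GT.W.Lower
import Fermat.Agent.GT.W.Unram
import Fermat.Agent.GT.EMB.Norm2
import Fermat.Agent.GR.I.Build

/-!
# GT-W (S36 wiring), piece W4d : the core theorem `CoreKI` in terms of the lattice

An inertia invariant class of level `q² M0` modulo `n` (`q ∤ n`) killed by `U_q` and by the trace is killed
by `c`.
-/

set_option autoImplicit false
set_option synthInstance.maxHeartbeats 400000

open ModularCurve CongruenceSubgroup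

namespace Fermat.Agent.GT.W

open Fermat.Agent.GR Fermat.Agent.GR.A Fermat.Agent.GR.B Fermat.Agent.GR.E Fermat.Agent.GR.I

variable {q M0 : ℕ} [Fact q.Prime] [NeZero (q ^ 2 * M0)]

theorem Car_theta_one {N : ℕ} [NeZero N] (D : KummerData N) {n : ℕ} (hn : 0 < n) :
    D.theta n 1 = 0 := by
  have h := D.theta_mul n hn 1 1 kummer_isKummer_one kummer_isKummer_one
  rw [mul_one] at h
  exact left_eq_add.mp h

theorem Car_isKummer_of_equiv {N n : ℕ} {u w : LaurentSeries Qbar} (hu : IsKummer (N := N) n u)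
    (h : KummerEquiv N n u w) : IsKummer (N := N) n w := by
  obtain ⟨z, hz, hz0, rfl⟩ := h
  exact hu.mul (isKummer_pow_self hz hz0)

/-- PIECE W4d. -/
theorem car_of_coreK (hK : CoreKI) (hqM : ¬ q ∣ M0) (T : CharTheory (q ^ 2 * M0))
    (ι : Qbar →+* ℂ) :
    ∃ c : ℕ, 0 < c ∧ ∀ A : ValuationSubring Qbar, A.LiesOverPrime q → ∀ n : ℕ, 0 < n → ¬ q ∣ n →
      ∀ y : Lam (q ^ 2 * M0),
        (∀ τ ∈ A.inertiaSubgroupIn ℚ,
          (T.toKummerData ι).act n τ ((T.toKummerData ι).red n y) = (T.toKummerData ι).red n y) →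
        (T.toKummerData ι).red n ((T.toKummerData ι).hecke
          (CuspForm.heckeAlgebra.U (Fact.out : q.Prime) (Dvd.intro _ (by ring : q * (q * M0) = q ^ 2 * M0))
            (Set.notMem_empty q)) y) = 0 →
        (T.toKummerData ι).red n (opLam (repsTr (q ^ 2 * M0) q ⟨M0, rfl⟩ (NeZero.ne _)) y) = 0 →
        (T.toKummerData ι).red n ((c : ℤ) • y) = 0 := by
  have hq : q.Prime := Fact.out
  have : NeZero q := ⟨hq.ne_zero⟩
  have hM0 : M0 ≠ 0 := fun h => NeZero.ne (q ^ 2 * M0) (by rw [h, mul_zero])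
  obtain ⟨c, hc, core⟩ := hK q hq M0 hM0 hqM
  refine ⟨c, hc, fun A hA n hn hqn y hI hU hTr => ?_⟩
  have : NeZero n := ⟨hn.ne'⟩
  set D := T.toKummerData ι with hD
  obtain ⟨u, hu, hux⟩ := D.theta_surj n hn y
  -- the invariant representative
  obtain ⟨w, huw, -, hfix⟩ := C.exists_fixed_rep_Qbar hn hu.mem hu.ne_zero
  have hw : IsKummer (N := q ^ 2 * M0) n w := Car_isKummer_of_equiv hu huw
  have hwx : D.theta n w = D.red n y := by
    rw [← hux]
    exact ((D.theta_eq_iff n hn _ _ hu hw).mpr huw).symm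
  have hfixI : ∀ τ ∈ A.inertiaSubgroupIn ℚ, gal τ w = w := by
    intro τ hτ
    apply hfix τ
    have h1 := hI τ hτ
    rw [← hux, D.act_theta hn τ hu] at h1
    exact (D.theta_eq_iff n hn _ _ hu (galStable n τ _ hu)).mp h1.symm
  obtain ⟨L, hL, hunr, hdef⟩ := Unram_exists_inertFixed_field A hw.mem hfixI
  obtain ⟨ζ, hζ⟩ := KummerData.exists_primitiveRoot q
  have hqN : q ∣ q ^ 2 * M0 := Dvd.intro _ (by ring : q * (q * M0) = q ^ 2 * M0)
  -- first norm
  have h1 : KummerEquiv (q * M0) n 1 (normT q ζ w) := by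
    apply kummerEquiv_lower hq hM0 hqM hqn (EMB.normT_mem_FF_of_sq hq hM0 hqM ζ hζ hw.mem)
    rw [← D.theta_eq_iff n hn _ _ kummer_isKummer_one (D.normStable n q ζ hq hqN hζ w hw),
      Car_theta_one D hn, D.theta_heckeU n hn q hq hqN ζ hζ w y hw hwx]
    exact hU.symm
  -- second norm
  have hchar : HasChar (q ^ 2 * M0) n (coeffMap ι w) (chi (q ^ 2 * M0) n (coeffMap ι w)) :=
    T.hasChar_chi (C.isKummer_coeffMap_hom ι hw)
  have hchar2 := hasChar_normFF hqM ι (⟨w, hw.mem⟩ : FF Qb (q ^ 2 * M0)) hchar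
  have hkills : Kills ((repsTr (q ^ 2 * M0) q ⟨M0, rfl⟩ (NeZero.ne _)).op (ZMod n)
      (chi (q ^ 2 * M0) n (coeffMap ι w))) :=
    Reps.op_Kills _ (T.kills_chi (C.isKummer_coeffMap_hom ι hw))
  have hNk : IsKummer (N := q ^ 2 * M0) n
      ((normFF Qb (N := q * M0) (N' := q ^ 2 * M0) ⟨q, by ring⟩ ⟨w, hw.mem⟩ : FF Qb (q * M0)) :
        LaurentSeries Qb) :=
    (C.isKummer_iota_iff ι).mp (T.isKummer n _ _ hchar2 hkills)
  have h2 : KummerEquiv (q * M0) n 1
      ((normFF Qb (N := q * M0) (N' := q ^ 2 * M0) ⟨q, by ring⟩ ⟨w, hw.mem⟩ : FF Qb (q * M0)) :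
        LaurentSeries Qb) := by
    apply kummerEquiv_lower hq hM0 hqM hqn (SetLike.coe_mem _)
    rw [← D.theta_eq_iff n hn _ _ kummer_isKummer_one hNk, Car_theta_one D hn]
    have h3 : D.theta n ((normFF Qb (N := q * M0) (N' := q ^ 2 * M0) ⟨q, by ring⟩ ⟨w, hw.mem⟩ :
        FF Qb (q * M0)) : LaurentSeries Qb) =
        (repsTr (q ^ 2 * M0) q ⟨M0, rfl⟩ (NeZero.ne _)).op (ZMod n)
          (chi (q ^ 2 * M0) n (coeffMap ι w)) := T.chi_eq hchar2
    have h4 : chi (q ^ 2 * M0) n (coeffMap ι w) = castHom (q ^ 2 * M0) (ZMod n) y := hwx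
    rw [h3, h4, ← castHom_opLam]
    exact hTr.symm
  have h3 := core A hA L hunr n hqn ζ hζ w hw.mem hdef hw h1 h2
  have h4 := (D.theta_eq_iff n hn _ _ kummer_isKummer_one (hw.pow c)).mpr h3
  obtain ⟨e, rfl⟩ : ∃ e, c = e + 1 := ⟨c - 1, (Nat.succ_pred_eq_of_pos hc).symm⟩
  rw [Car_theta_one D hn, D.theta_pow hn hw e, hwx] at h4
  have h5 : D.red n ((((e + 1 : ℕ) : ℤ)) • (y : D.Λ)) = (((e + 1 : ℕ) : ℤ)) • D.red n y :=
    map_zsmul (D.red n) _ _
  refine h5.trans ?_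
  rw [natCast_zsmul]
  exact h4.symm

end Fermat.Agent.GT.W
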