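import Fermat.Agent.GT.W.TrComm
import Fermat.Agent.GT.W.Anemic
import Fermat.Agent.GR.H.EigenCharA
import Fermat.Agent.S49.Normalize
import Fermat.Agent.S22
import Fermat.Prelude.Def_CuspForm_Newforms

/-!
# GT-W (S36 wiring), piece W1 : newforms of level `M`, `q² ∣ M`, are killed by `U_q` and by the trace

* `exists_normalized_of_anemic` (file `Anemic.lean`) : a nonzero eigenvector `h` of all `T_ℓ`, `ℓ ∤ N`,
  produces a normalized eigenform with the same good eigenvalues.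
* `U_q g = a_q g` is invariant under `Γ₀(M/q)` (`heckeU_slash`); if `a_q ≠ 0`, `g` has level `M/q`
  (`exists_lower`) and is a normalized eigenform there (the conditions only involve the set of primes
  dividing the level, which is the same for `M` and `M/q`): contradiction with newness.
* `h = Tr g` has level `M/q` and `T_ℓ h = a_ℓ h` (`trOp_comm_heckeT`; `T_ℓ` is given by the same formula on
  functions at both levels); if `h ≠ 0` the good eigensystem of `g` occurs at level `M/q`.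
-/

set_option autoImplicit false
set_option linter.unusedSectionVars false
set_option linter.unusedVariables false

open CongruenceSubgroup ModularFormClass UpperHalfPlane
open scoped MatrixGroups ModularForm

namespace Fermat.Agent.GT.W

variable {M q : ℕ} [NeZero M] [Fact q.Prime]

theorem Newness_dvd (h : q ^ 2 ∣ M) : q ∣ M := dvd_trans (dvd_pow_self q two_ne_zero) h

theorem Newness_div_dvd (h : q ^ 2 ∣ M) : M / q ∣ M := Nat.div_dvd_of_dvd (Newness_dvd h)

theorem Newness_div_ne (h : q ^ 2 ∣ M) : M / q ≠ M :=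
  (Nat.div_lt_self (Nat.pos_of_ne_zero (NeZero.ne M)) (Fact.out : q.Prime).one_lt).ne

theorem Newness_div_ne_zero (h : q ^ 2 ∣ M) : M / q ≠ 0 := by
  intro h0
  obtain ⟨c, hc⟩ := Newness_dvd h
  have hq : 0 < q := (Fact.out : q.Prime).pos
  rw [hc, Nat.mul_div_cancel_left _ hq] at h0
  exact NeZero.ne M (by rw [hc, h0, mul_zero])

/-- `M` and `M / q` have the same prime divisors. -/
theorem Newness_prime_dvd_iff (h : q ^ 2 ∣ M) {ℓ : ℕ} (hℓ : ℓ.Prime) : ℓ ∣ M / q ↔ ℓ ∣ M := by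
  constructor
  · exact fun h1 => dvd_trans h1 (Newness_div_dvd h)
  · intro h1
    obtain ⟨c, hc⟩ := h
    have hq : 0 < q := (Fact.out : q.Prime).pos
    have h2 : M / q = q * c := by
      rw [hc, pow_two, mul_assoc, Nat.mul_div_cancel_left _ hq]
    rw [h2]
    rw [hc, pow_two, mul_assoc] at h1
    rcases (Nat.Prime.dvd_mul hℓ).mp h1 with h3 | h3
    · exact Dvd.dvd.mul_right h3 c
    · exact h3

theorem qCoeff_eq_zero_of_isNewform {g : CuspForm (Gamma0 M) 2} (hg : g.IsNewform)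
    (h : q ^ 2 ∣ M) : qCoeff g q = 0 := by
  by_contra ha
  have hq : q.Prime := Fact.out
  have hqM : q ∣ M := Newness_dvd h
  have hU : CuspForm.heckeULin 2 hqM g = qCoeff g q • g := GR.H.EigenCharA_heckeULin hg.1 hq hqM
  have hinv : ∀ γ ∈ Gamma0 (M / q),
      (⇑g) ∣[(2 : ℤ)] (Matrix.SpecialLinearGroup.mapGL ℝ γ) = ⇑g := by
    intro γ hγ
    have h1 := heckeU_slash h hqM g γ hγ
    rw [hU] at h1
    have h2 : (⇑(qCoeff g q • g) : ℍ → ℂ) = qCoeff g q • (⇑g : ℍ → ℂ) := rfl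
    rw [h2] at h1
    have h3 : (qCoeff g q • (⇑g : ℍ → ℂ)) ∣[(2 : ℤ)] (Matrix.SpecialLinearGroup.mapGL ℝ γ) =
        qCoeff g q • ((⇑g : ℍ → ℂ) ∣[(2 : ℤ)] (Matrix.SpecialLinearGroup.mapGL ℝ γ)) :=
      ModularForm.SL_smul_slash 2 γ (⇑g) (qCoeff g q)
    rw [h3] at h1
    exact smul_right_injective _ ha h1
  obtain ⟨f', hf'⟩ := exists_lower (Newness_div_dvd h) g hinv
  refine hg.2 (M / q) (Newness_div_dvd h) (Newness_div_ne h) ⟨f', ?_, ?_⟩
  · refine ⟨?_, ?_, ?_, ?_⟩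
    · rw [hf']; exact hg.1.qCoeff_one
    · intro m n hmn
      rw [hf']; exact hg.1.qCoeff_mul_of_coprime m n hmn
    · intro p r hp hpN
      rw [hf']
      exact hg.1.qCoeff_prime_pow_of_not_dvd p r hp (fun h1 => hpN ((Newness_prime_dvd_iff h hp).mpr h1))
    · intro p r hp hpN
      rw [hf']
      exact hg.1.qCoeff_prime_pow_of_dvd p r hp ((Newness_prime_dvd_iff h hp).mp hpN)
  · intro ℓ _ _
    rw [hf']

theorem trOp_eq_zero_of_isNewform {g : CuspForm (Gamma0 M) 2} (hg : g.IsNewform)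
    (h : q ^ 2 ∣ M) : trOp h g = 0 := by
  by_contra h0
  have hne : NeZero (M / q) := ⟨Newness_div_ne_zero h⟩
  obtain ⟨f', hf'⟩ := exists_lower (Newness_div_dvd h) (trOp h g) (fun γ hγ => trOp_slash h g γ hγ)
  have hf'0 : f' ≠ 0 := by
    rintro rfl
    apply h0
    apply DFunLike.coe_injective
    rw [← hf']
    rfl
  have hT : ∀ (ℓ : ℕ) (hℓ : ℓ.Prime) (hℓN : ¬ ℓ ∣ M / q),
      CuspForm.heckeTLin 2 hℓ hℓN f' = qCoeff g ℓ • f' := by
    intro ℓ hℓ hℓN
    have hℓM : ¬ ℓ ∣ M := fun h1 => hℓN ((Newness_prime_dvd_iff h hℓ).mpr h1)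
    apply DFunLike.coe_injective
    have h1 : CuspForm.heckeTLin 2 hℓ hℓM (trOp h g) = qCoeff g ℓ • trOp h g := by
      have h2 := congrArg (fun T : Module.End ℂ (CuspForm (Gamma0 M) 2) => T g)
        (trOp_comm_heckeT h hℓ hℓM)
      simp only [Module.End.mul_apply] at h2
      rw [← h2, GR.H.EigenCharA_heckeTLin hg.1 hℓ hℓM, map_smul]
    have h3 := congrArg (fun F : CuspForm (Gamma0 M) 2 => (⇑F : ℍ → ℂ)) h1
    simp only [CuspForm.coe_heckeTLin_apply] at h3
    rw [CuspForm.coe_heckeTLin_apply, hf', h3]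
    have h4 : (⇑(qCoeff g ℓ • f') : ℍ → ℂ) = qCoeff g ℓ • (⇑f' : ℍ → ℂ) := rfl
    have h5 : (⇑(qCoeff g ℓ • trOp h g) : ℍ → ℂ) = qCoeff g ℓ • (⇑(trOp h g) : ℍ → ℂ) := rfl
    rw [h4, h5, hf']
  obtain ⟨f, hf, hfa⟩ := exists_normalized_of_anemic f' hf'0 (fun ℓ => qCoeff g ℓ) hT
  exact hg.2 (M / q) (Newness_div_dvd h) (Newness_div_ne h)
    ⟨f, hf, fun ℓ hℓ hℓM => hfa ℓ hℓ (fun h1 => hℓM ((Newness_prime_dvd_iff h hℓ).mp h1))⟩

end Fermat.Agent.GT.W
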