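import Fermat.Agent.GT.W.TrForm
import Fermat.Agent.GR.B.LatMain

/-!
# GT-W (S36 wiring), piece W2b : the trace on the Betti lattice and Eichler-Shimura

`tr := opLam (repsTr M q h _)` on `Λ = Lam M` corresponds to `trOp h` on `S₂(Γ₀(M))`.
Pattern: `GR/B/ES.lean` (`periodMap_heckeP`, `op_charInvolution_P`, `periodHomPair_heckeP`),
`GR/B/Invol.lean` (`Reps.op_charInvolution_of`, `op_charInvolution_U`), `GR/B/LatHecke.lean` (`compat_genP`),
`GR/B/LatEigen.lean` (`LatEigen_transport`, `exists_esEquiv`, `eigen_dim`).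
-/

set_option autoImplicit false

open CongruenceSubgroup Matrix.SpecialLinearGroup UpperHalfPlane ModularCurve ModularCurve.Period
open scoped MatrixGroups TensorProduct

namespace Fermat.Agent.GT.W

open Fermat.Agent.GR Fermat.Agent.GR.B

theorem TrCompat_lowU_mul (x y : ℤ) : lowU x * lowU y = lowU (x + y) := by
  apply Subtype.ext
  change (!![1, 0; x, 1] : Matrix (Fin 2) (Fin 2) ℤ) * !![1, 0; y, 1] = !![1, 0; x + y, 1]
  rw [Matrix.mul_fin_two]
  simp

theorem TrCompat_jConjSL_lowU (x : ℤ) : jConjSL (lowU x) = lowU (-x) := by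
  apply Subtype.ext
  change jConjMat (!![1, 0; x, 1] : Matrix (Fin 2) (Fin 2) ℤ) = !![1, 0; -x, 1]
  simp [jConjMat]

variable {M q : ℕ} [NeZero M] [Fact q.Prime]

theorem op_charInvolution_Tr (h : q ^ 2 ∣ M)
    (R : Type*) [Semiring R] (B : Type*) [AddCommGroup B] [Module R B]
    (φ : Additive (Gamma0 M) →+ B) :
    (repsTr M q h (NeZero.ne M)).op B (charInvolution M R B φ) =
      charInvolution M R B ((repsTr M q h (NeZero.ne M)).op B φ) := by
  obtain ⟨hMq, -, hc0⟩ := TrReps_arith h (NeZero.ne M)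
  have hsum : ∀ j : ZMod q, (q : ℤ) ∣ ((j.val : ℤ) + ((-j).val : ℤ)) := by
    intro j
    rw [← ZMod.intCast_zmod_eq_zero_iff_dvd]
    push_cast
    rw [ZMod.natCast_zmod_val, ZMod.natCast_zmod_val, add_neg_cancel]
  have hmem : ∀ j : ZMod q,
      lowU (-(((j.val : ℤ) + ((-j).val : ℤ)) * ((M / q : ℕ) : ℤ))) ∈ Gamma0 M := by
    intro j
    rw [Gamma0_mem, ZMod.intCast_zmod_eq_zero_iff_dvd]
    change (M : ℤ) ∣ -(((j.val : ℤ) + ((-j).val : ℤ)) * ((M / q : ℕ) : ℤ))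
    rw [hMq, dvd_neg]
    exact mul_dvd_mul_right (hsum j) _
  refine Reps.op_charInvolution_of (repsTr M q h (NeZero.ne M)) Invol_Jm Invol_hJ
    (Equiv.neg (ZMod q)) (fun j : ZMod q => ⟨_, hmem j⟩) ?_ ?_ R B φ
  · intro j
    change ZMod q at j
    change Invol_Jm * mapGL ℝ (delta M q j) * Invol_Jm⁻¹ =
      mapGL ℝ (lowU (-(((j.val : ℤ) + ((-j).val : ℤ)) * ((M / q : ℕ) : ℤ)))) *
        mapGL ℝ (delta M q (-j))
    rw [Invol_hJ, ← map_mul, delta, delta, TrCompat_jConjSL_lowU, TrCompat_lowU_mul]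
    congr 2
    ring
  · intro γ j
    change ZMod q at j
    change -(trIdx M q ((jConjGamma0 M γ : Gamma0 M) : SL(2, ℤ)) j) =
      trIdx M q (γ : SL(2, ℤ)) (-j)
    have hγ := (TrReps_gamma h (NeZero.ne M) (Gamma0_le_div h γ.2)).1
    have hdvd : ((M / q : ℕ) : ℤ) ∣ (γ : SL(2, ℤ)) 1 0 := ⟨_, hγ⟩
    unfold trIdx
    rw [jConjGamma0_coe, jConjSL_coe, jConjMat_apply_one_zero, Int.neg_ediv_of_dvd hdvd]
    have h00 : jConjMat ((γ : SL(2, ℤ)) : Matrix (Fin 2) (Fin 2) ℤ) 0 0 = (γ : SL(2, ℤ)) 0 0 := by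
      simp [jConjMat]
    rw [h00]
    push_cast
    ring

theorem TrCompat_periodHomPair (h : q ^ 2 ∣ M) (f g : CuspForm (Gamma0 M) 2) :
    periodHomPair M (trOp h f, trOp h g) =
      (repsTr M q h (NeZero.ne M)).op ℂ (periodHomPair M (f, g)) := by
  have h1 : ∀ f : CuspForm (Gamma0 M) 2, periodMap M (trOp h f) =
      (repsTr M q h (NeZero.ne M)).op ℂ (periodMap M f) := fun f =>
    periodMap_of_reps (repsTr M q h (NeZero.ne M)) f (trOp h f) (coe_trOp h f)
  rw [periodHomPair_apply, periodHomPair_apply, map_add, map_add, map_sub,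
    op_charInvolution_Tr, op_charInvolution_Tr, h1, h1]

theorem compat_trOp (h : q ^ 2 ∣ M) :
    Compat M (trOp h) (opLam (repsTr M q h (NeZero.ne M))) := by
  intro l f g hfg
  rw [TrCompat_periodHomPair, hfg]
  exact (repsTr M q h (NeZero.ne M)).op_comp (Int.castAddHom ℂ) (l : Additive (Gamma0 M) →+ ℤ)

/-- PIECE W2b. -/
theorem tr_baseChange_eq_zero (h : q ^ 2 ∣ M) (μ : H.HeckeFull M →+* ℂ)
    (hμ : ∀ f ∈ H.cuspEigen M μ, trOp h f = 0) :
    ∀ x ∈ H.eigenSub (heckeLam M) ℂ μ,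
      (opLam (repsTr M q h (NeZero.ne M))).baseChange ℂ x = 0 := by
  intro x hx
  obtain ⟨e, he⟩ := (univBasis M).exists_tensorEquiv
  set Ψ := (LatEigen_P M).trans e.symm with hΨ
  have hT : ∀ (t : H.HeckeFull M) (f g : CuspForm (Gamma0 M) 2),
      Ψ ((t : Module.End ℂ (CuspForm (Gamma0 M) 2)) f,
          (t : Module.End ℂ (CuspForm (Gamma0 M) 2)) g) =
        (heckeLam M t).baseChange ℂ (Ψ (f, g)) := fun t f g =>
    LatEigen_transport M e he
      (LinearMap.prodMap (t : Module.End ℂ (CuspForm (Gamma0 M) 2))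
        (t : Module.End ℂ (CuspForm (Gamma0 M) 2))) (heckeLam M t)
      (fun l p hp => compat_heckeLam M t l p.1 p.2 hp) (f, g)
  have hTr : ∀ f g : CuspForm (Gamma0 M) 2,
      Ψ (trOp h f, trOp h g) =
        (opLam (repsTr M q h (NeZero.ne M))).baseChange ℂ (Ψ (f, g)) := fun f g =>
    LatEigen_transport M e he (LinearMap.prodMap (trOp h) (trOp h))
      (opLam (repsTr M q h (NeZero.ne M)))
      (fun l p hp => compat_trOp h l p.1 p.2 hp) (f, g)
  obtain ⟨⟨f, g⟩, rfl⟩ := Ψ.surjective x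
  have hx' : ∀ t : H.HeckeFull M, (heckeLam M t).baseChange ℂ (Ψ (f, g)) = μ t • Ψ (f, g) := by
    simpa [H.eigenSub, Submodule.mem_iInf, sub_eq_zero] using hx
  have hfg : f ∈ H.cuspEigen M μ ∧ g ∈ H.cuspEigen M μ := by
    rw [LatEigen_mem_cuspEigen, LatEigen_mem_cuspEigen, ← forall_and]
    intro t
    have h1 := hx' t
    rw [← hT, ← map_smul, Ψ.injective.eq_iff, Prod.smul_mk, Prod.mk.injEq] at h1
    exact h1
  rw [← hTr, hμ f hfg.1, hμ g hfg.2]
  exact map_zero Ψ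

end Fermat.Agent.GT.W
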