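import Fermat.Agent.GT.W.Car
import Fermat.Agent.GT.W.Newness
import Fermat.Agent.GT.W.TrCompat
import Fermat.Agent.GR.H.Rank

/-!
# GT-W (S36 wiring), piece W4e : everything the abstract argument needs at a prime `q` with `q² ∥ M`
-/

set_option autoImplicit false
set_option synthInstance.maxHeartbeats 400000

open ModularCurve CongruenceSubgroup ModularFormClass
open scoped TensorProduct

namespace Fermat.Agent.GT.W

open Fermat.Agent.GR Fermat.Agent.GR.A Fermat.Agent.GR.B Fermat.Agent.GR.E Fermat.Agent.GR.I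
  Fermat.Agent.GR.H

theorem Key_exists_M0 {M q : ℕ} (hM : M ≠ 0) (hq : q.Prime) (hfac : M.factorization q = 2) :
    ∃ M0 : ℕ, M = q ^ 2 * M0 ∧ ¬ q ∣ M0 := by
  refine ⟨M / q ^ M.factorization q, ?_, Nat.not_dvd_ordCompl hq hM⟩
  have := Nat.ordProj_mul_ordCompl_eq_self M q
  rw [hfac] at this ⊢
  exact this.symm

/-- PIECE W4e. -/
theorem key (hK : CoreKI) {M : ℕ} [NeZero M] (T : CharTheory M) (hcrux : CruxAll M)
    (ι : Qbar →+* ℂ) (p : ℕ) (hp : p.Prime)
    {g : CuspForm (Gamma0 M) 2} (hg : g.IsNewform) (μ : HeckeFull M →+* ℂ)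
    (hμ : ∀ t : HeckeFull M, (t : Module.End ℂ (CuspForm (Gamma0 M) 2)) g = μ t • g)
    (q : ℕ) (hq : q.Prime) (hqp : q ≠ p) (hfac : M.factorization q = 2) :
    ∃ (𝓕 : Set (Module.End ℤ (((T.toKummerData ι).toLevelData hcrux p hp).toTateData).Λ)) (c : ℕ),
      0 < c ∧
      (∀ f ∈ 𝓕, ∀ x ∈ eigenSub (((T.toKummerData ι).toLevelData hcrux p hp).toTateData).hecke ℂ μ,
        f.baseChange ℂ x = 0) ∧
      ∀ A : ValuationSubring Qbar, A.LiesOverPrime q →
        ∀ (k : ℕ) (y : (((T.toKummerData ι).toLevelData hcrux p hp).toTateData).Λ),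
          (∀ τ ∈ A.inertiaSubgroupIn ℚ,
            ∃ z, (((T.toKummerData ι).toLevelData hcrux p hp).toTateData).gal k τ y - y =
              ((p ^ k : ℕ) : ℤ) • z) →
          (∀ f ∈ 𝓕, ∃ z, f y = ((p ^ k : ℕ) : ℤ) • z) →
          ∃ z, (c : ℤ) • y = ((p ^ k : ℕ) : ℤ) • z := by
  obtain ⟨M0, rfl, hqM⟩ := Key_exists_M0 (NeZero.ne M) hq hfac
  have : Fact q.Prime := ⟨hq⟩
  obtain ⟨c, hc, car⟩ := car_of_coreK hK hqM T ι
  have hsq : q ^ 2 ∣ q ^ 2 * M0 := ⟨M0, rfl⟩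
  have hqN : q ∣ q ^ 2 * M0 := Dvd.intro _ (by ring : q * (q * M0) = q ^ 2 * M0)
  set LD := (T.toKummerData ι).toLevelData hcrux p hp with hLD
  let U : HeckeFull (q ^ 2 * M0) := CuspForm.heckeAlgebra.U hq hqN (Set.notMem_empty q)
  let tr : Module.End ℤ (Lam (q ^ 2 * M0)) := opLam (repsTr (q ^ 2 * M0) q hsq (NeZero.ne _))
  refine ⟨{heckeLam (q ^ 2 * M0) U, tr}, c, hc, ?_, ?_⟩
  · rintro f (rfl | rfl) x hx
    · -- `U_q`
      have h1 : μ U = 0 := by
        have h2 := hμ U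
        have h3 : (U : Module.End ℂ (CuspForm (Gamma0 (q ^ 2 * M0)) 2)) g = qCoeff g q • g :=
          EigenCharA_heckeULin hg.1 hq hqN
        rw [h3, qCoeff_eq_zero_of_isNewform hg hsq, zero_smul] at h2
        exact (smul_eq_zero.mp h2.symm).resolve_right hg.ne_zero
      have h4 := (Rank_mem_eigenSub _ ℂ μ x).mp hx U
      rw [h1, zero_smul] at h4
      exact h4
    · -- the trace
      refine tr_baseChange_eq_zero hsq μ (fun f hf => ?_) x hx
      have hgm : g ∈ cuspEigen (q ^ 2 * M0) μ := by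
        rw [LatEigen_mem_cuspEigen]
        exact hμ
      have h1 := (finrank_eq_one_iff_of_nonzero' (⟨g, hgm⟩ : cuspEigen (q ^ 2 * M0) μ)
        (fun h => hg.ne_zero (congrArg Subtype.val h))).mp (finrank_cuspEigen _ μ) ⟨f, hf⟩
      obtain ⟨a, ha⟩ := h1
      have h2 : f = a • g := (congrArg Subtype.val ha).symm
      rw [h2, map_smul, trOp_eq_zero_of_isNewform hg hsq, smul_zero]
  · intro A hA k y hI h𝓕
    have hqn : ¬ q ∣ p ^ k := fun h =>
      hqp ((Nat.prime_dvd_prime_iff_eq hq hp).mp (hq.dvd_of_dvd_pow h))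
    have hred : ∀ a : Lam (q ^ 2 * M0), (∃ z : Lam (q ^ 2 * M0), a = ((p ^ k : ℕ) : ℤ) • z) →
        (T.toKummerData ι).red (p ^ k) a = 0 := fun a ha =>
      ((T.toKummerData ι).red_eq_zero_iff (p ^ k) a).mpr ha
    apply ((T.toKummerData ι).red_eq_zero_iff (p ^ k) _).mp
    refine car A hA (p ^ k) (pow_pos hp.pos k) hqn y (fun τ hτ => ?_) ?_ ?_
    · have h1 := hred _ (hI τ hτ)
      have h2 : (T.toKummerData ι).red (p ^ k) (LD.gal k τ y) =
          (T.toKummerData ι).act (p ^ k) τ ((T.toKummerData ι).red (p ^ k) y) := LD.red_gal k τ y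
      rw [← h2]
      have h3 := (map_sub ((T.toKummerData ι).red (p ^ k)) (LD.gal k τ y) y).symm.trans h1
      exact sub_eq_zero.mp h3
    · exact hred _ (h𝓕 _ (Or.inl rfl))
    · exact hred _ (h𝓕 _ (Or.inr rfl))

end Fermat.Agent.GT.W
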