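import Fermat.Agent.GR.H.Rank

/-!
# GT-W (S36 wiring), piece W2d : an operator killing a complex eigenspace kills the `𝒪`-eigenspace

`μ : 𝕋 → ℂ`, `lam : 𝕋 → 𝒪` with `ker μ ⊆ ker lam` (so `lam = ψ ∘ μ` for an injective
`ψ : μ.range → 𝒪`).  If `f ∈ End_ℤ Λ` kills the `μ`-eigenspace of `ℂ ⊗ Λ`, it kills the
`lam`-eigenspace of `𝒪 ⊗ Λ`.

Proof: `E = Frac (𝕋 / ker μ)` embeds into `ℂ` and into `Frac 𝒪`.  By
`GR.H.Rank_finrank_sol_baseChange` (index type `Option (Fin r)`, extra operator `f` with eigenvalue `0`)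
the dimension of `V ∩ ker f` and of `V` do not depend on the field; they agree over `ℂ`, hence over
`Frac 𝒪`; finally `𝒪 ⊗ Λ → Frac 𝒪 ⊗ Λ` is injective (`Λ` is free).
-/

set_option autoImplicit false

open scoped TensorProduct

namespace Fermat.Agent.GT.W

open Fermat.Agent.GR.H

/-- the eigenspace cut by the kernel of `f`, as a `Rank_sol`. -/
theorem Transfer_inf_ker_eq_sol {𝕋 Λ : Type} [CommRing 𝕋] [AddCommGroup Λ]
    (hecke : 𝕋 →+* Module.End ℤ Λ) (f : Module.End ℤ Λ)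
    {r : ℕ} (g : Fin r → 𝕋)
    (hg : Submodule.span ℤ (Set.range g) = ⊤) (R : Type) [CommRing R] (lam : 𝕋 →+* R) :
    eigenSub hecke R lam ⊓ LinearMap.ker (f.baseChange R) =
      Rank_sol (fun i : Option (Fin r) => i.elim f (fun i => hecke (g i))) R
        (fun i : Option (Fin r) => i.elim (0 : R) (fun i => lam (g i))) := by
  rw [Rank_eigenSub_eq_sol hecke g hg, Rank_sol, Rank_sol, iInf_option, inf_comm]
  congr 1
  ext x
  simp [Rank_fam]

/-- the dimension of `V ∩ ker f` is invariant under field extension. -/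
theorem Transfer_finrank_inf_ker {𝕋 Λ : Type} [CommRing 𝕋] [Module.Finite ℤ 𝕋]
    [AddCommGroup Λ] (hecke : 𝕋 →+* Module.End ℤ Λ) (f : Module.End ℤ Λ)
    (R R' : Type) [Field R] [Field R'] [Algebra R R'] (lam : 𝕋 →+* R) (lam' : 𝕋 →+* R')
    (h : ∀ t, lam' t = algebraMap R R' (lam t)) :
    Module.finrank R' ↥(eigenSub hecke R' lam' ⊓ LinearMap.ker (f.baseChange R')) =
      Module.finrank R ↥(eigenSub hecke R lam ⊓ LinearMap.ker (f.baseChange R)) := by
  obtain ⟨r, g, hg⟩ := Module.Finite.exists_fin (R := ℤ) (M := 𝕋)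
  have hc : (fun i : Option (Fin r) => i.elim (0 : R') (fun i => lam' (g i))) =
      fun j : Option (Fin r) => algebraMap R R' (j.elim (0 : R) (fun i => lam (g i))) := by
    funext i
    cases i with
    | none => simp
    | some i => simp [h]
  rw [Transfer_inf_ker_eq_sol hecke f g hg, Transfer_inf_ker_eq_sol hecke f g hg,
    ← Rank_finrank_sol_baseChange _ R R', hc]

/-- `f` kills the eigenspace over `R` iff it does so over the extension field `R'`. -/
theorem Transfer_field {𝕋 Λ : Type} [CommRing 𝕋] [Module.Finite ℤ 𝕋]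
    [AddCommGroup Λ] [Module.Free ℤ Λ] [Module.Finite ℤ Λ]
    (hecke : 𝕋 →+* Module.End ℤ Λ) (f : Module.End ℤ Λ)
    (R R' : Type) [Field R] [Field R'] [Algebra R R'] (lam : 𝕋 →+* R) (lam' : 𝕋 →+* R')
    (h : ∀ t, lam' t = algebraMap R R' (lam t)) :
    (eigenSub hecke R' lam' ≤ LinearMap.ker (f.baseChange R')) ↔
      (eigenSub hecke R lam ≤ LinearMap.ker (f.baseChange R)) := by
  have h1 := Transfer_finrank_inf_ker hecke f R R' lam lam' h
  have h2 := Rank_finrank_eigenSub_baseChange hecke R R' lam lam' h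
  have key : ∀ (F : Type) [Field F] (l : 𝕋 →+* F),
      (eigenSub hecke F l ≤ LinearMap.ker (f.baseChange F)) ↔
        Module.finrank F ↥(eigenSub hecke F l ⊓ LinearMap.ker (f.baseChange F)) =
          Module.finrank F ↥(eigenSub hecke F l) := by
    intro F _ l
    constructor
    · intro hle
      rw [inf_eq_left.2 hle]
    · intro heq
      have := Submodule.eq_of_le_of_finrank_eq (inf_le_left) heq
      exact inf_eq_left.1 this
  rw [key R' lam', key R lam, h1, h2]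

/-- `ker lam ⊆ ker μ`. -/
theorem Transfer_ker {𝕋 : Type} [CommRing 𝕋] [Module.Finite ℤ 𝕋]
    (μ : 𝕋 →+* ℂ) (𝒪 : Type) [CommRing 𝒪] [IsDomain 𝒪] [CharZero 𝒪] (lam : 𝕋 →+* 𝒪)
    (hker : ∀ t, μ t = 0 → lam t = 0) (t : 𝕋) (ht : lam t = 0) : μ t = 0 := by
  by_contra hne
  have hint : IsIntegral ℤ (μ t) :=
    (Algebra.IsIntegral.isIntegral (R := ℤ) t).map μ.toIntAlgHom
  set P := minpoly ℤ (μ t) with hP
  have hP0 : P.coeff 0 ≠ 0 := by
    have h0 := minpoly.coeff_zero_ne_zero (A := ℚ) hint.tower_top hne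
    rw [minpoly.isIntegrallyClosed_eq_field_fractions' ℚ hint, Polynomial.coeff_map] at h0
    intro h
    apply h0
    rw [← hP, h, map_zero]
  have h1 : μ (Polynomial.aeval t P) = 0 := by
    have : μ (Polynomial.aeval t P) = Polynomial.aeval (μ t) P :=
      (Polynomial.aeval_algHom_apply μ.toIntAlgHom t P).symm ▸ rfl
    rw [this, hP, minpoly.aeval]
  have h2 := hker _ h1
  have h3 : lam (Polynomial.aeval t P) = Polynomial.aeval (lam t) P :=
    (Polynomial.aeval_algHom_apply lam.toIntAlgHom t P).symm ▸ rfl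
  rw [h3, ht, ← Polynomial.coeff_zero_eq_aeval_zero'] at h2
  apply hP0
  simpa using h2

/-- descent from a field containing `𝒪` to `𝒪`. -/
theorem Transfer_descend {𝕋 Λ : Type} [CommRing 𝕋]
    [AddCommGroup Λ] [Module.Free ℤ Λ] (hecke : 𝕋 →+* Module.End ℤ Λ)
    (𝒪 K : Type) [CommRing 𝒪] [Field K] [Algebra 𝒪 K]
    (hinj : Function.Injective (algebraMap 𝒪 K)) (lam : 𝕋 →+* 𝒪) (f : Module.End ℤ Λ)
    (hfK : eigenSub hecke K ((algebraMap 𝒪 K).comp lam) ≤ LinearMap.ker (f.baseChange K)) :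
    ∀ x ∈ eigenSub hecke 𝒪 lam, f.baseChange 𝒪 x = 0 := by
  let j : 𝒪 ⊗[ℤ] Λ →ₗ[ℤ] K ⊗[ℤ] Λ :=
    LinearMap.rTensor Λ ((Algebra.linearMap 𝒪 K).restrictScalars ℤ)
  have hjinj : Function.Injective j :=
    Module.Flat.rTensor_preserves_injective_linearMap _ hinj
  have hjA : ∀ (B : Module.End ℤ Λ) (x : 𝒪 ⊗[ℤ] Λ), j (B.baseChange 𝒪 x) = B.baseChange K (j x) := by
    intro B x
    induction x using TensorProduct.induction_on with
    | zero => simp
    | add x y hx hy => simp only [map_add, hx, hy]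
    | tmul a l =>
      simp only [j, LinearMap.baseChange_tmul]
      erw [LinearMap.rTensor_tmul]
  have hjs : ∀ (a : 𝒪) (x : 𝒪 ⊗[ℤ] Λ), j (a • x) = algebraMap 𝒪 K a • j x := by
    intro a x
    induction x using TensorProduct.induction_on with
    | zero => simp
    | add x y hx hy => simp only [smul_add, map_add, hx, hy]
    | tmul b l =>
      simp only [j, TensorProduct.smul_tmul', smul_eq_mul]
      erw [LinearMap.rTensor_tmul, LinearMap.rTensor_tmul]
      rw [TensorProduct.smul_tmul']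
      congr 1
      simp
  intro x hx
  apply hjinj
  rw [hjA, map_zero]
  apply hfK
  rw [Rank_mem_eigenSub] at hx ⊢
  intro t
  rw [← hjA, hx t, hjs]
  rfl

/-- the statement for abstract fields `E ⊆ ℂ`, `E ⊆ K ⊇ 𝒪`. -/
theorem Transfer_aux {𝕋 Λ : Type} [CommRing 𝕋] [Module.Finite ℤ 𝕋]
    [AddCommGroup Λ] [Module.Free ℤ Λ] [Module.Finite ℤ Λ] (hecke : 𝕋 →+* Module.End ℤ Λ)
    (μ : 𝕋 →+* ℂ) (𝒪 K E : Type) [CommRing 𝒪] [Field K] [Field E] [Algebra 𝒪 K]
    (hinj : Function.Injective (algebraMap 𝒪 K)) (lam : 𝕋 →+* 𝒪)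
    (ιK : E →+* K) (ιC : E →+* ℂ) (lamE : 𝕋 →+* E)
    (hK : ∀ t, (algebraMap 𝒪 K).comp lam t = ιK (lamE t)) (hC : ∀ t, μ t = ιC (lamE t))
    (f : Module.End ℤ Λ)
    (hf : ∀ x ∈ eigenSub hecke ℂ μ, f.baseChange ℂ x = 0) :
    ∀ x ∈ eigenSub hecke 𝒪 lam, f.baseChange 𝒪 x = 0 := by
  have hfC : eigenSub hecke ℂ μ ≤ LinearMap.ker (f.baseChange ℂ) := fun x hx => hf x hx
  have hfE : eigenSub hecke E lamE ≤ LinearMap.ker (f.baseChange E) := by
    let _ : Algebra E ℂ := ιC.toAlgebra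
    exact (Transfer_field hecke f E ℂ lamE μ hC).1 hfC
  have hfK : eigenSub hecke K ((algebraMap 𝒪 K).comp lam) ≤ LinearMap.ker (f.baseChange K) := by
    let _ : Algebra E K := ιK.toAlgebra
    exact (Transfer_field hecke f E K lamE _ hK).2 hfE
  exact Transfer_descend hecke 𝒪 K hinj lam f hfK

/-- PIECE W2d. -/
theorem baseChange_eq_zero_of_complex {𝕋 Λ : Type} [CommRing 𝕋] [Module.Finite ℤ 𝕋]
    [AddCommGroup Λ] [Module.Free ℤ Λ] [Module.Finite ℤ Λ] (hecke : 𝕋 →+* Module.End ℤ Λ)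
    (μ : 𝕋 →+* ℂ) (𝒪 : Type) [CommRing 𝒪] [IsDomain 𝒪] [CharZero 𝒪] (lam : 𝕋 →+* 𝒪)
    (hker : ∀ t, μ t = 0 → lam t = 0) (f : Module.End ℤ Λ)
    (hf : ∀ x ∈ eigenSub hecke ℂ μ, f.baseChange ℂ x = 0) :
    ∀ x ∈ eigenSub hecke 𝒪 lam, f.baseChange 𝒪 x = 0 := by
  classical
  -- the fields
  let K := FractionRing 𝒪
  let A := μ.range
  let E := FractionRing A
  -- `ψ : A → K`
  let ψ₀ : A →+* 𝒪 :=
    RingHom.liftOfRightInverse μ.rangeRestrict
      (Function.surjInv μ.rangeRestrict_surjective)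
      (Function.rightInverse_surjInv μ.rangeRestrict_surjective)
      ⟨lam, by
        intro t ht
        rw [RingHom.mem_ker] at ht ⊢
        apply hker
        have := congrArg Subtype.val ht
        simpa using this⟩
  have hψ₀ : ∀ t, ψ₀ (μ.rangeRestrict t) = lam t := by
    intro t
    exact RingHom.liftOfRightInverse_comp_apply _ _ _ _ t
  have hψ₀inj : Function.Injective ψ₀ := by
    rw [injective_iff_map_eq_zero]
    intro a ha
    obtain ⟨t, rfl⟩ := μ.rangeRestrict_surjective a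
    rw [hψ₀] at ha
    have := Transfer_ker μ 𝒪 lam hker t ha
    ext
    simpa using this
  let ψ : A →+* K := (algebraMap 𝒪 K).comp ψ₀
  have hψinj : Function.Injective ψ :=
    (IsFractionRing.injective 𝒪 K).comp hψ₀inj
  let ιK : E →+* K := IsFractionRing.lift hψinj
  have hsub : Function.Injective A.subtype := Subtype.val_injective
  let ιC : E →+* ℂ := IsFractionRing.lift hsub
  let lamE : 𝕋 →+* E := (algebraMap A E).comp μ.rangeRestrict
  have hK : ∀ t, (algebraMap 𝒪 K).comp lam t = ιK (lamE t) := by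
    intro t
    simp only [lamE, ιK, RingHom.comp_apply, IsFractionRing.lift_algebraMap, ψ, hψ₀]
  have hC : ∀ t, μ t = ιC (lamE t) := by
    intro t
    have : ιC (algebraMap A E (μ.rangeRestrict t)) = A.subtype (μ.rangeRestrict t) :=
      IsFractionRing.lift_algebraMap hsub _
    simp only [lamE, RingHom.comp_apply]
    rw [this]
    rfl
  exact Transfer_aux hecke μ 𝒪 K E (IsFractionRing.injective 𝒪 K) lam ιK ιC lamE hK hC f hf

end Fermat.Agent.GT.W
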