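import Fermat.Agent.GT.W.Key
import Fermat.Agent.GT.W.Abstract
import Fermat.Agent.GT.W.Transfer
import Fermat.Agent.GT.W.ExtNew
import Fermat.Agent.GR.I.Final
import Fermat.Agent.Lib.Frobenius

/-!
# GT-W (S36 wiring), piece W5 : S36 from the interfaces

Inputs: `FrobeniusDensity` (GR-G), `E.ModelExists` (GR-D), `CharTheory` (GR-A/B), `CoreKI` (GT geometry).
-/

set_option autoImplicit false
set_option synthInstance.maxHeartbeats 400000

open Polynomial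
open CuspForm CuspForm.IsNewform
open scoped TensorProduct

namespace Fermat.Agent.GT.W

open Fermat.Agent.GR Fermat.Agent.GR.I Fermat.Agent.GR.H

/-- two characters of an anemic Hecke algebra without `U`-generators agree if they agree on the `T_ℓ`. -/
theorem Main_char_ext {M : ℕ} [NeZero M] (S : Set ℕ) (hMS : ∀ q : ℕ, q.Prime → q ∣ M → q ∈ S)
    (φ ψ : CuspForm.heckeAlgebra M 2 S →+* ℂ)
    (h : ∀ (ℓ : ℕ) (hℓ : ℓ.Prime) (hℓM : ¬ ℓ ∣ M) (hℓS : ℓ ∉ S),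
      φ (CuspForm.heckeAlgebra.T hℓ hℓM hℓS) = ψ (CuspForm.heckeAlgebra.T hℓ hℓM hℓS))
    (t : CuspForm.heckeAlgebra M 2 S) : φ t = ψ t := by
  obtain ⟨t, ht⟩ := t
  induction ht using Algebra.adjoin_induction with
  | mem t ht =>
    rcases ht with ⟨ℓ, hℓ, hℓN, hℓS, rfl⟩ | ⟨q, hqN, hq, hqS, rfl⟩
    · exact h ℓ hℓ hℓN hℓS
    · exact absurd (hMS q hq hqN) hqS
  | algebraMap r =>
    have h1 : (⟨algebraMap ℤ _ r, Subalgebra.algebraMap_mem _ r⟩ : CuspForm.heckeAlgebra M 2 S) =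
        algebraMap ℤ (CuspForm.heckeAlgebra M 2 S) r := rfl
    rw [h1]
    simp
  | add s t hs ht ihs iht =>
    have h1 : (⟨s + t, add_mem hs ht⟩ : CuspForm.heckeAlgebra M 2 S) = ⟨s, hs⟩ + ⟨t, ht⟩ := rfl
    rw [h1, map_add, map_add, ihs, iht]
  | mul s t hs ht ihs iht =>
    have h1 : (⟨s * t, mul_mem hs ht⟩ : CuspForm.heckeAlgebra M 2 S) = ⟨s, hs⟩ * ⟨t, ht⟩ := rfl
    rw [h1, map_mul, map_mul, ihs, iht]

/-- The conclusion of S36 (the hypothesis `hres` of the frozen statement is not needed). -/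
theorem S36_of (cheb : FrobeniusDensity) (hD : E.ModelExists)
    (T : ∀ (N : ℕ) [NeZero N], CharTheory N) (hK : CoreKI)
    {M : ℕ} [NeZero M] {g : CuspForm (CongruenceSubgroup.Gamma0 M) 2} (hg : g.IsNewform)
    (lam : ℕ) [Fact lam.Prime]
    (S : Finset ℕ)
    (O' : Type) [CommRing O'] [IsDomain O'] [IsDiscreteValuationRing O']
    [IsAdicComplete (IsLocalRing.maximalIdeal O') O'] [Finite (IsLocalRing.ResidueField O')]
    [CharZero O'] (hlamO' : (lam : O') ∈ IsLocalRing.maximalIdeal O')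
    (chig : CuspForm.heckeAlgebra M 2 (↑S : Set ℕ) →+* ℂ)
    (hchig : ∀ (ℓ : ℕ) (hℓ : ℓ.Prime) (hℓM : ¬ ℓ ∣ M) (hℓS : ℓ ∉ (↑S : Set ℕ)),
      chig (CuspForm.heckeAlgebra.T hℓ hℓM hℓS) = ModularFormClass.qCoeff g ℓ)
    (iota : chig.range →+* O')
    (hlamS : lam ∈ S) (hMS : ∀ q : ℕ, q.Prime → q ∣ M → q ∈ S) :
    ∃ (O'' : Type) (_ : CommRing O'') (_ : IsDomain O'') (_ : IsDiscreteValuationRing O'')
      (_ : IsAdicComplete (IsLocalRing.maximalIdeal O'') O'') (_ : Finite (IsLocalRing.ResidueField O''))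
      (_ : CharZero O'') (_ : Algebra O' O'') (_ : Module.Finite O' O'') (_ : IsLocalHom (algebraMap O' O'')),
      Function.Injective (algebraMap O' O'') ∧
      ∃ ρ : GaloisRepAdic O'',
        (∀ (ℓ : ℕ) (hℓ : ℓ.Prime) (hℓM : ¬ ℓ ∣ M) (hℓS : ℓ ∉ (↑S : Set ℕ)),
          ∀ A : ValuationSubring (AlgebraicClosure ℚ), A.LiesOverPrime ℓ →
            ∀ σ : AlgebraicClosure ℚ ≃ₐ[ℚ] AlgebraicClosure ℚ, A.IsFrobeniusAt σ ℓ →
              LinearMap.charpoly (ρ.ρ σ) =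
                X ^ 2 - C (algebraMap O' O'' ((iota.comp chig.rangeRestrict) (CuspForm.heckeAlgebra.T hℓ hℓM hℓS))) * X
                  + C ((ℓ : O''))) ∧
        (∀ q : ℕ, q.Prime → q ≠ lam → M.factorization q = 2 → ¬ ρ.IsUnipotentOnInertiaAt q) := by
  classical
  have hp : lam.Prime := Fact.out
  let ι : Qbar →+* ℂ := (IsAlgClosed.lift (R := ℚ) (S := Qbar) (M := ℂ)).toRingHom
  have hcrux : CruxAll M := cruxAll_of_modelExists hD M
  let D : TateData M lam := (((T M).toKummerData ι).toLevelData hcrux lam hp).toTateData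
  -- the full eigencharacter of `g`
  obtain ⟨χ, hχ1, hχ2⟩ := exists_eigenchar hg.1 (∅ : Set ℕ)
  let μ : HeckeFull M →+* ℂ := (algebraMap (integralClosure ℤ ℂ) ℂ).comp χ
  have hμg : ∀ t : HeckeFull M,
      (t : Module.End ℂ (CuspForm (CongruenceSubgroup.Gamma0 M) 2)) g = μ t • g := hχ1
  have hμS : ∀ t, μ (heckeIncl M (↑S : Set ℕ) t) = chig t :=
    Main_char_ext (↑S : Set ℕ) (fun q hq hqM => Finset.mem_coe.mpr (hMS q hq hqM))
      (μ.comp (heckeIncl M (↑S : Set ℕ))) chig (fun ℓ hℓ hℓM hℓS => by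
        rw [hchig, RingHom.comp_apply, heckeIncl_T]
        exact hχ2 ℓ hℓ hℓM (Set.notMem_empty ℓ))
  obtain ⟨O'', i1, i2, i3, i4, i5, i6, i7, i8, i9, hinj, lamO, hlam1, hlam2⟩ :=
    exists_extension_through M (↑S : Set ℕ) O' chig iota μ hμS
  refine ⟨O'', i1, i2, i3, i4, i5, i6, i7, i8, i9, hinj, ?_⟩
  have hpO : (lam : O'') ∈ IsLocalRing.maximalIdeal O'' := by
    have h1 : algebraMap O' O'' (lam : O') ∈ IsLocalRing.maximalIdeal O'' :=
      map_nonunit (algebraMap O' O'') _ hlamO'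
    simpa using h1
  have hp0 : (lam : O'') ≠ 0 := Nat.cast_ne_zero.mpr hp.ne_zero
  obtain ⟨B, hB⟩ := exists_bigRep_cong D O'' hpO
  obtain ⟨ρ, j, hjinj, hrange, hj⟩ :=
    exists_eigenRep D O'' hpO hp0 B lamO (finrank_eigenSub D O'' lamO)
  refine ⟨ρ, ?_, ?_⟩
  · intro ℓ hℓ hℓM hℓS A hA σ hσ
    have hℓp : ℓ ≠ lam := fun h => hℓS (by rw [h]; exact hlamS)
    rw [charpoly_of_eigenRep cheb D O'' hpO lamO B ρ j hjinj hrange hj ℓ hℓ hℓM hℓp A hA σ hσ,
      ← heckeIncl_T M (↑S : Set ℕ) hℓ hℓM hℓS, hlam1]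
    rfl
  · intro q hq hqp hfac
    obtain ⟨A, hA⟩ := Fermat.Agent.Lib.Frobenius.exists_liesOverPrime (K := AlgebraicClosure ℚ) q hq
    obtain ⟨𝓕, c, hc, h𝓕, car⟩ := key hK (T M) hcrux ι lam hp hg μ hμg q hq hqp hfac
    have : Module.Finite ℤ (HeckeFull M) := Fermat.Agent.S22.result M 2 ∅
    exact not_isUnipotentOnInertiaAt D O'' hpO lamO B hB ρ j hjinj hrange hj q A hA 𝓕
      (fun f hf => baseChange_eq_zero_of_complex D.hecke μ O'' lamO hlam2 f (h𝓕 f hf)) c hc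
      (car A hA)

end Fermat.Agent.GT.W
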