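import Fermat.Agent.GT.W.TrReps
import Fermat.Agent.GT.EMB.Middle
import Fermat.Agent.GR.B.KummerMain

/-!
# GT-W (S36 wiring), piece W2c (analytic): `f ↦ f ∘ δ_j` on expansions is `iotaMid`

`M = q² M0`.  For a holomorphic modular function `c` of level `M` with expansion `f`, the expansion of
`c ∘ δ_j` (`j ≠ 0`) is `iotaMid ℂ q M0 ζ f`, `ζ = exp(2πi b/q)`, `M0 b j ≡ 1 (mod q)`.
Consequently the expansion of `∏_j c ∘ δ_j` is `f * ∏_{a=1}^{q-1} iotaMid (ζ^a) f` for any primitive `ζ`.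

Proof of `isExp_comp_delta`: the set of `a ∈ A.A1 ℂ M` (`GR/A/EvF.lean`, the `ℂ`-algebra generated by the
`j(t^d)`) with `IsExp 1 (evA a ∘ δ_j) (iotaMid ζ (incl a))` contains the generators (`d ∣ q M0`: `j(dτ)` is
`Γ₀(q M0)`-invariant and `iotaMid_gen`, `midImg`; `d = q² d'`: `middle_map_explicit` + `EMB.isExp_jfun_affH`),
the constants, and is stable under `+`, `*` (see the proof of `EMB.exists_emb`).  A general `f ∈ FF ℂ M` is
`x / y` with `x, y` in the image of `A1`; `c * ev y = ev x` as functions (`IsExp.fun_unique`), compose with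
`δ_j`, and divide.
-/

set_option autoImplicit false

open UpperHalfPlane ModularCurve CongruenceSubgroup
open scoped MatrixGroups

namespace Fermat.Agent.GT.W

open Fermat.Agent.GR Fermat.Agent.GR.A Fermat.Agent.GR.B
open Fermat.Agent.S28 (IsExp)

/-- The matrix identity `diag(D,1) γ = δ [[a,b],[0,e]]` in terms of the action on `ℍ`
(copy of a private lemma of `GT/EMB/MidMap.lean`). -/
theorem MidAn_mulPos_smul_eq (D : ℕ) [NeZero D] (γ δ : SL(2, ℤ)) (a e : ℕ) (b : ℤ)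
    (he : 0 < e)
    (h00 : (D : ℤ) * γ 0 0 = δ 0 0 * a) (h01 : (D : ℤ) * γ 0 1 = δ 0 0 * b + δ 0 1 * e)
    (h10 : γ 1 0 = δ 1 0 * a) (h11 : γ 1 1 = δ 1 0 * b + δ 1 1 * e)
    (τ τ' : ℍ) (hτ : (τ' : ℂ) = ((a : ℂ) * τ + b) / e) : S24.mulPos D (γ • τ) = δ • τ' := by
  apply UpperHalfPlane.ext
  rw [S24.coe_mulPos, coe_specialLinearGroup_apply, coe_specialLinearGroup_apply, hτ]
  have heC : (e : ℂ) ≠ 0 := by exact_mod_cast he.ne'
  simp only [algebraMap_int_eq, Int.coe_castRingHom, Complex.ofReal_intCast]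
  have c00 : (D : ℂ) * ((γ 0 0 : ℤ) : ℂ) = ((δ 0 0 : ℤ) : ℂ) * a := by exact_mod_cast h00
  have c01 : (D : ℂ) * ((γ 0 1 : ℤ) : ℂ) = ((δ 0 0 : ℤ) : ℂ) * b + ((δ 0 1 : ℤ) : ℂ) * e := by
    exact_mod_cast h01
  have c10 : ((γ 1 0 : ℤ) : ℂ) = ((δ 1 0 : ℤ) : ℂ) * a := by exact_mod_cast h10
  have c11 : ((γ 1 1 : ℤ) : ℂ) = ((δ 1 0 : ℤ) : ℂ) * b + ((δ 1 1 : ℤ) : ℂ) * e := by
    exact_mod_cast h11
  have hnum : ((δ 0 0 : ℤ) : ℂ) * (((a : ℂ) * τ + b) / e) + ((δ 0 1 : ℤ) : ℂ) =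
      ((D : ℂ) * (((γ 0 0 : ℤ) : ℂ) * τ + ((γ 0 1 : ℤ) : ℂ))) / e := by
    field_simp
    linear_combination (-(τ : ℂ)) * c00 - c01
  have hden : ((δ 1 0 : ℤ) : ℂ) * (((a : ℂ) * τ + b) / e) + ((δ 1 1 : ℤ) : ℂ) =
      (((γ 1 0 : ℤ) : ℂ) * τ + ((γ 1 1 : ℤ) : ℂ)) / e := by
    field_simp
    linear_combination (-(τ : ℂ)) * c10 - c11
  rw [hnum, hden, div_div_div_cancel_right₀ heC, mul_div_assoc]

theorem MidAn_exists_SL (a b c d : ℤ) (h : a * d - b * c = 1) :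
    ∃ γ : SL(2, ℤ), γ 0 0 = a ∧ γ 0 1 = b ∧ γ 1 0 = c ∧ γ 1 1 = d :=
  ⟨⟨!![a, b; c, d], by rw [Matrix.det_fin_two_of]; exact h⟩, rfl, rfl, rfl, rfl⟩

/-- explicit form of `EMB.exists_middle_map` (copy its proof). -/
theorem middle_map_explicit {q M0 : ℕ} (hq : q.Prime) (hM0 : M0 ≠ 0) (b c k : ℤ)
    (hkc : k * q + c * (M0 * b) = 1) (d : ℕ) [NeZero (q ^ 2 * d)] (hd : d ∣ M0) (τ : ℍ) :
    S24.jdfun (q ^ 2 * d) (lowU ((q : ℤ) * M0 * c) • τ) =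
      S24.jfun (S28.affH (q * d) (b * d) q τ) := by
  obtain ⟨e, rfl⟩ := hd
  have hd0 : 0 < d := Nat.pos_of_ne_zero (fun h => hM0 (by rw [h, zero_mul]))
  push_cast at hkc
  obtain ⟨δ, d00, d01, d10, d11⟩ := MidAn_exists_SL (q : ℤ) (-(b * d)) ((e : ℤ) * c) k
    (by linear_combination hkc)
  have g00 : (lowU ((q : ℤ) * ((d * e : ℕ) : ℤ) * c)) 0 0 = 1 := rfl
  have g01 : (lowU ((q : ℤ) * ((d * e : ℕ) : ℤ) * c)) 0 1 = 0 := rfl
  have g10 : (lowU ((q : ℤ) * ((d * e : ℕ) : ℤ) * c)) 1 0 = (q : ℤ) * ((d * e : ℕ) : ℤ) * c := rfl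
  have g11 : (lowU ((q : ℤ) * ((d * e : ℕ) : ℤ) * c)) 1 1 = 1 := rfl
  rw [S24.jdfun, MidAn_mulPos_smul_eq (q ^ 2 * d) (lowU ((q : ℤ) * ((d * e : ℕ) : ℤ) * c)) δ
    (q * d) q (b * d) hq.pos ?_ ?_ ?_ ?_ τ (S28.affH (q * d) (b * d) q τ)
    (by rw [S28.coe_affH _ (Nat.mul_pos hq.pos hd0) hq.pos τ]), S24.jfun_smul]
  · rw [g00, d00]
    push_cast
    ring
  · rw [g01, d00, d01]
    ring
  · rw [g10, d10]
    push_cast
    ring
  · rw [g11, d10, d11]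
    linear_combination -hkc

/-- the `A1`-induction: the expansion of `(evA a) ∘ γ` is `iotaMid ζ a` (generic base field). -/
theorem MidAn_isExp_evA {K : Type} [Field K] (ι : K →+* ℂ) {q M0 : ℕ} [NeZero (q ^ 2 * M0)]
    (hq : q.Prime) (hqM : ¬ q ∣ M0) (ζ : Kˣ) (hζ : IsPrimitiveRoot ζ q) (b : ℤ)
    (hζb : ι ζ = Complex.exp (2 * Real.pi * Complex.I * b / q))
    (γ : SL(2, ℤ)) (hγ : γ ∈ Gamma0 (q * M0))
    (hmid : ∀ (d : ℕ) (_ : NeZero (q ^ 2 * d)), d ∣ M0 → ∀ τ : ℍ,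
        S24.jdfun (q ^ 2 * d) (γ • τ) = S24.jfun (S28.affH (q * d) (b * d) q τ))
    (a : A.A1 K (q ^ 2 * M0)) :
    IsExp 1 (fun τ => (A.evA ι (q ^ 2 * M0) a : ℍ → ℂ) (γ • τ))
      (coeffMap ι (EMB.iotaMid K q M0 ζ (A.incl K (q ^ 2 * M0) a))) := by
  induction a using A.A1_induction with
  | hgen d hd0 hd =>
    have h1 : A.incl K (q ^ 2 * M0) (A.jdA K (q ^ 2 * M0) d hd) = EMB.gen K (q ^ 2 * M0) d hd :=
      Subtype.ext (EMB.jd_eq K d).symm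
    rw [h1, EMB.iotaMid_gen ι hq hqM ζ hζ]
    refine IsExp.congr ?_ fun τ => (A.evA_jdA ι (q ^ 2 * M0) d hd (γ • τ)).symm
    by_cases hsq : q ^ 2 ∣ d
    · obtain ⟨d0, rfl⟩ := hsq
      have hd0M : d0 ∣ M0 := Nat.dvd_of_mul_dvd_mul_left (pow_pos hq.pos 2) hd
      have hd0ne : d0 ≠ 0 := fun h => hd0.out (by rw [h, mul_zero])
      rw [EMB.Middle_midImg_sq ζ hq.pos]
      have := EMB.isExp_jfun_affH ι hq.pos ζ b hζb d0 hd0ne (b * d0) (by simp)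
      have e : (fun τ => S24.jdfun (q ^ 2 * d0) (γ • τ)) =
          fun τ => S24.jfun (S28.affH (q * d0) (b * d0) q τ) := funext (hmid d0 hd0 hd0M)
      rw [e]
      exact this
    · have hd' : d ∣ q * M0 := EMB.Middle_dvd_of_not_sq_dvd hq hd hsq
      rw [EMB.Middle_midImg_of_not_dvd ζ hsq, EMB.coeffMap_jd, EMB.jd_eq]
      have e : (fun τ => S24.jdfun d (γ • τ)) = S24.jdfun d :=
        funext fun τ => S24.jdfun_smul_of_mem_Gamma0 (q * M0) d hd' γ hγ τ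
      rw [e]
      exact B.isExp_jdfun d
  | hconst c =>
    rw [AlgHom.commutes, AlgHom.commutes, A.coeffMap_algebraMap, A.evA_algebraMap]
    exact S28.isExp_C 1 (ι c)
  | hadd a b ha hb =>
    rw [map_add, map_add, map_add, map_add]
    exact ha.add hb
  | hmul a b ha hb =>
    rw [map_mul, map_mul, map_mul, map_mul]
    exact ha.mul hb

/-- the expansion of `evA a`. -/
theorem MidAn_isExp_evA_id {K : Type} [Field K] (ι : K →+* ℂ) (N : ℕ) (a : A.A1 K N) :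
    IsExp 1 (A.evA ι N a : ℍ → ℂ) (coeffMap ι (a : LaurentSeries K)) := by
  rw [← A.laurentHom_evA ι N a]
  exact B.isExp_laurentHom ⟨_, A.evA_mem ι N a⟩

/-- division of expansions. -/
theorem MidAn_isExp_div {M : ℕ} [NeZero M] {g X Y : ℍ → ℂ} {sx sy : LaurentSeries ℂ}
    (hg : g ∈ S24.MerInf M) (hX : IsExp 1 X sx) (hY : IsExp 1 Y sy) (hsy : sy ≠ 0)
    (h : ∀ τ, g τ * Y τ = X τ) : IsExp 1 g (sx / sy) := by
  obtain ⟨s, hs⟩ := B.exists_isExp_of_mem hg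
  have hX' := A.isExp_level M hX
  have hY' := A.isExp_level M hY
  have h1 : IsExp M X (s * qExpand ℂ M sy) := (hs.mul hY').congr h
  have h2 : s * qExpand ℂ M sy = qExpand ℂ M sx :=
    h1.unique (Nat.pos_of_ne_zero (NeZero.ne M)) hX'
  have h3 : qExpand ℂ M sy ≠ 0 := (map_ne_zero _).2 hsy
  have h4 : s = qExpand ℂ M (sx / sy) := by
    rw [map_div₀, eq_div_iff h3, h2]
  rw [h4] at hs
  exact B.isExp_one_of_qExpand hs

/-- (G1), generic base field. -/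
theorem MidAn_isExp_comp {K : Type} [Field K] (ι : K →+* ℂ) {q M0 : ℕ} [NeZero (q ^ 2 * M0)]
    (hq : q.Prime) (hqM : ¬ q ∣ M0) (ζ : Kˣ) (hζ : IsPrimitiveRoot ζ q) (b : ℤ)
    (hζb : ι ζ = Complex.exp (2 * Real.pi * Complex.I * b / q))
    (γ : SL(2, ℤ)) (hγ : γ ∈ Gamma0 (q * M0))
    (hmid : ∀ (d : ℕ) (_ : NeZero (q ^ 2 * d)), d ∣ M0 → ∀ τ : ℍ,
        S24.jdfun (q ^ 2 * d) (γ • τ) = S24.jfun (S28.affH (q * d) (b * d) q τ))
    {c : ℍ → ℂ} (f : FF K (q ^ 2 * M0)) (hf : IsExp 1 c (coeffMap ι (f : LaurentSeries K)))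
    (hc : (fun τ => c (γ • τ)) ∈ S24.MerInf (q ^ 2 * M0)) :
    IsExp 1 (fun τ => c (γ • τ)) (coeffMap ι (EMB.iotaMid K q M0 ζ f)) := by
  obtain ⟨x, y, hy, rfl⟩ := A.exists_frac K (q ^ 2 * M0) f
  have hy' : A.incl K (q ^ 2 * M0) y ≠ 0 := fun h =>
    hy (A.incl_injective K (q ^ 2 * M0) (by rw [h, map_zero]))
  have hy2 : (y : LaurentSeries K) ≠ 0 := fun h => hy (Subtype.ext h)
  have hX := MidAn_isExp_evA_id ι (q ^ 2 * M0) x
  have hY := MidAn_isExp_evA_id ι (q ^ 2 * M0) y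
  have e1 : ((A.incl K (q ^ 2 * M0) x / A.incl K (q ^ 2 * M0) y : FF K (q ^ 2 * M0)) :
      LaurentSeries K) = (x : LaurentSeries K) / (y : LaurentSeries K) := rfl
  have hrel : ∀ τ, c τ * (A.evA ι (q ^ 2 * M0) y : ℍ → ℂ) τ =
      (A.evA ι (q ^ 2 * M0) x : ℍ → ℂ) τ := by
    have h1 := hf.mul hY
    rw [e1, ← map_mul, div_mul_cancel₀ _ hy2] at h1
    exact h1.fun_unique hX
  rw [map_div₀, map_div₀]
  refine MidAn_isExp_div hc (MidAn_isExp_evA ι hq hqM ζ hζ b hζb γ hγ hmid x)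
    (MidAn_isExp_evA ι hq hqM ζ hζ b hζb γ hγ hmid y) ?_ fun τ => hrel (γ • τ)
  exact (map_ne_zero _).2 ((map_ne_zero _).2 hy')

theorem MidAn_coeffMap_id (x : LaurentSeries ℂ) : coeffMap (RingHom.id ℂ) x = x := by
  ext k
  simp

theorem MidAn_lowU_mem_Gamma0 (N : ℕ) (c : ℤ) : lowU ((N : ℤ) * c) ∈ Gamma0 N := by
  rw [Gamma0_mem]
  have : (lowU ((N : ℤ) * c)) 1 0 = (N : ℤ) * c := rfl
  rw [this]
  push_cast
  rw [ZMod.natCast_self, zero_mul]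

variable {q M0 : ℕ} [Fact q.Prime] [NeZero (q ^ 2 * M0)]

/-- (G1) -/
theorem isExp_comp_delta (hqM : ¬ q ∣ M0) (j : ZMod q) (ζ : ℂˣ) (b : ℤ)
    (hζ : (ζ : ℂ) = Complex.exp (2 * Real.pi * Complex.I * b / q))
    (hb : (q : ℤ) ∣ M0 * b * (j.val : ℤ) - 1)
    {c : ℍ → ℂ} {f : LaurentSeries ℂ} (hc : IsModFun (q ^ 2 * M0) c) (hf : IsExp 1 c f)
    (hfm : f ∈ FF ℂ (q ^ 2 * M0)) :
    IsExp 1 (fun τ => c (delta (q ^ 2 * M0) q j • τ)) (EMB.iotaMid ℂ q M0 ζ ⟨f, hfm⟩) := by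
  have hq : q.Prime := Fact.out
  have hM0 : M0 ≠ 0 := fun h => NeZero.ne (q ^ 2 * M0) (by rw [h, mul_zero])
  have hqC : (q : ℂ) ≠ 0 := by exact_mod_cast hq.ne_zero
  obtain ⟨k, hk⟩ := hb
  have hkc : (-k) * q + (j.val : ℤ) * (M0 * b) = 1 := by linear_combination hk
  -- `ζ` is a primitive root of unity
  have hcop : IsCoprime b (q : ℤ) := ⟨(j.val : ℤ) * M0, -k, by linear_combination hkc⟩
  have hζ0 : IsPrimitiveRoot (ζ : ℂ) q := by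
    have h1 := (Complex.isPrimitiveRoot_exp q hq.ne_zero).zpow_of_gcd_eq_one b
      (Int.isCoprime_iff_gcd_eq_one.mp hcop)
    have e : (ζ : ℂ) = Complex.exp (2 * Real.pi * Complex.I / q) ^ b := by
      rw [hζ, ← Complex.exp_int_mul]
      congr 1
      ring
    rw [e]
    exact h1
  have hζ1 : IsPrimitiveRoot ζ q := IsPrimitiveRoot.coe_units_iff.mp hζ0
  have hdiv : q ^ 2 * M0 / q = q * M0 := by
    rw [pow_two, mul_assoc, Nat.mul_div_cancel_left _ hq.pos]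
  have hδ : delta (q ^ 2 * M0) q j = lowU ((q : ℤ) * M0 * (j.val : ℤ)) := by
    rw [delta, hdiv]
    congr 1
    push_cast
    ring
  have hδ' : delta (q ^ 2 * M0) q j = lowU (((q * M0 : ℕ) : ℤ) * (j.val : ℤ)) := by
    rw [hδ, Nat.cast_mul]
  have key := MidAn_isExp_comp (RingHom.id ℂ) hq hqM ζ hζ1 b hζ (delta (q ^ 2 * M0) q j)
    (by rw [hδ']; exact MidAn_lowU_mem_Gamma0 _ _)
    (fun d _ hd τ => by rw [hδ]; exact middle_map_explicit hq hM0 b (j.val : ℤ) (-k) hkc d hd τ)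
    (c := c) ⟨f, hfm⟩ (by rw [MidAn_coeffMap_id]; exact hf) (hc.cusp _)
  rw [MidAn_coeffMap_id] at key
  exact key

end Fermat.Agent.GT.W
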