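import Fermat.Agent.GT.W.MidAn

/-!
# GT-W (S36 wiring), piece W2c (analytic), part B: the expansion of `∏_j c ∘ δ_j`

`(G2) isExp_mulFun_repsTr`, deduced from `(G1) isExp_comp_delta` by the reindexing
`j ↦ a(j) = ((M0 b0 j)⁻¹ : ZMod q).val`, a bijection of the nonzero residues onto `Ico 1 q`.
-/

set_option autoImplicit false

open UpperHalfPlane ModularCurve CongruenceSubgroup
open scoped MatrixGroups

namespace Fermat.Agent.GT.W

open Fermat.Agent.GR Fermat.Agent.GR.A Fermat.Agent.GR.B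
open Fermat.Agent.S28 (IsExp)

variable {q M0 : ℕ} [Fact q.Prime] [NeZero (q ^ 2 * M0)]

theorem MidAn_delta_zero (M : ℕ) : delta M q 0 = 1 := by
  unfold delta lowU
  ext i j
  fin_cases i <;> fin_cases j <;> simp

/-- the index `a(j)`. -/
noncomputable def MidAn_idx (u j : ZMod q) : ℕ := ((u * j)⁻¹).val

theorem MidAn_idx_mem {u j : ZMod q} (hu : u ≠ 0) (hj : j ≠ 0) :
    MidAn_idx u j ∈ Finset.Ico 1 q := by
  rw [Finset.mem_Ico]
  refine ⟨?_, ZMod.val_lt _⟩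
  rw [Nat.one_le_iff_ne_zero, MidAn_idx, Ne, ZMod.val_eq_zero]
  exact inv_ne_zero (mul_ne_zero hu hj)

theorem MidAn_prod_idx {β : Type*} [CommMonoid β] {u : ZMod q} (hu : u ≠ 0) (g : ℕ → β) :
    ∏ j ∈ (Finset.univ : Finset (ZMod q)).erase 0, g (MidAn_idx u j) =
      ∏ a ∈ Finset.Ico 1 q, g a := by
  refine Finset.prod_bij (fun j _ => MidAn_idx u j) ?_ ?_ ?_ ?_
  · intro j hj
    exact MidAn_idx_mem hu (Finset.ne_of_mem_erase hj)
  · intro j _ j' _ h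
    have h1 := ZMod.val_injective q h
    exact mul_left_cancel₀ hu (inv_injective h1)
  · intro a ha
    rw [Finset.mem_Ico] at ha
    have ha0 : (a : ZMod q) ≠ 0 := by
      intro h
      rw [ZMod.natCast_eq_zero_iff] at h
      exact absurd (Nat.le_of_dvd (by omega) h) (by omega)
    refine ⟨(u * a)⁻¹, Finset.mem_erase.2 ⟨inv_ne_zero (mul_ne_zero hu ha0), Finset.mem_univ _⟩, ?_⟩
    have : (u * (u * (a : ZMod q))⁻¹)⁻¹ = a := by
      field_simp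
    rw [MidAn_idx, this, ZMod.val_natCast, Nat.mod_eq_of_lt ha.2]
  · intro j _
    rfl

/-- (G2) -/
theorem isExp_mulFun_repsTr (hqM : ¬ q ∣ M0) (ζ : ℂˣ) (hζ : IsPrimitiveRoot ζ q)
    {c : ℍ → ℂ} {f : LaurentSeries ℂ} (hc : IsModFun (q ^ 2 * M0) c) (hf : IsExp 1 c f)
    (hfm : f ∈ FF ℂ (q ^ 2 * M0)) :
    IsExp 1 ((repsTr (q ^ 2 * M0) q ⟨M0, rfl⟩ (NeZero.ne _)).mulFun c)
      (f * ∏ a ∈ Finset.Ico 1 q, EMB.iotaMid ℂ q M0 (ζ ^ a) ⟨f, hfm⟩) := by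
  have hq : q.Prime := Fact.out
  obtain ⟨b0, hb0, hζb⟩ := EMB.exists_exp_of_isPrimitiveRoot (RingHom.id ℂ) hq ζ hζ
  rw [RingHom.id_apply] at hζb
  set u : ZMod q := (M0 : ZMod q) * (b0 : ZMod q) with hu
  have hu0 : u ≠ 0 := by
    refine mul_ne_zero ?_ ?_
    · rwa [Ne, ZMod.natCast_eq_zero_iff]
    · rwa [Ne, ZMod.intCast_zmod_eq_zero_iff_dvd]
  have hfun : (repsTr (q ^ 2 * M0) q ⟨M0, rfl⟩ (NeZero.ne _)).mulFun c =
      c * ∏ j ∈ (Finset.univ : Finset (ZMod q)).erase 0,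
        (fun τ : ℍ => c (delta (q ^ 2 * M0) q j • τ)) := by
    rw [HeckeFun_mulFun_eq_prod]
    change ∏ j : ZMod q, (fun τ : ℍ => c (delta (q ^ 2 * M0) q j • τ)) = _
    rw [← Finset.mul_prod_erase Finset.univ _ (Finset.mem_univ (0 : ZMod q)), MidAn_delta_zero]
    congr 1
    funext τ
    rw [one_smul]
  rw [hfun, ← MidAn_prod_idx hu0 (fun a => EMB.iotaMid ℂ q M0 (ζ ^ a) ⟨f, hfm⟩)]
  refine hf.mul (IsExp.prod _ _ _ fun j hj => ?_)
  have hj0 : j ≠ 0 := Finset.ne_of_mem_erase hj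
  refine isExp_comp_delta hqM j (ζ ^ MidAn_idx u j) ((MidAn_idx u j : ℤ) * b0) ?_ ?_ hc hf hfm
  · rw [Units.val_pow_eq_pow_val, hζb, ← Complex.exp_nat_mul]
    congr 1
    push_cast
    ring
  · rw [← ZMod.intCast_zmod_eq_zero_iff_dvd]
    push_cast
    rw [ZMod.natCast_zmod_val, MidAn_idx, ZMod.natCast_zmod_val]
    have : (M0 : ZMod q) * ((u * j)⁻¹ * (b0 : ZMod q)) * j = (u * j)⁻¹ * (u * j) := by
      rw [hu]
      ring
    rw [this, inv_mul_cancel₀ (mul_ne_zero hu0 hj0), sub_self]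

end Fermat.Agent.GT.W
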