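import Fermat.Agent.GT.W.MidAn2
import Fermat.Agent.GT.EMB.Norm1

/-!
# GT-W (S36 wiring), piece W2c : `χ_{N u} = tr χ_u` for the field norm `N = normFF : F_{q² M0} → F_{q M0}`

Pattern: `GR/B/KummerMain.lean` (`hasChar_normT`, `KummerMain_mem_FF`, `KummerMain_kummerEquiv`).
Let `T z := z * ∏_{a ∈ Ico 1 q} iotaMid ℂ q M0 (ζ^a) z` on `FF ℂ M` (multiplicative, nonzero on nonzero
elements, values in `FF ℂ M` by `exists_modFun_frac` + `isExp_mulFun_repsTr` + `isModFun_mulFun` +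
`IsModFun.mem_FF`).  By `EMB.normFF_eq_prod` and `EMB.coeffMap_iotaMid`,
`coeffMap ι (normFF u) = T (coeffMap ι u)`.  If `coeffMap ι u = f z^n` with `f` the expansion of `c`, `c = w^n`, then
`T (coeffMap ι u) = T f * (T z)^n`, `T f` is the expansion of `mulFun c = (mulFun w)^n` (`hasRoot_mulFun`).
-/

set_option autoImplicit false
set_option linter.unusedSectionVars false
set_option synthInstance.maxHeartbeats 400000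

open UpperHalfPlane ModularCurve CongruenceSubgroup
open scoped MatrixGroups

namespace Fermat.Agent.GT.W

open Fermat.Agent.GR Fermat.Agent.GR.A Fermat.Agent.GR.B Fermat.Agent.GR.E

variable {q M0 : ℕ} [Fact q.Prime] [NeZero (q ^ 2 * M0)]

/-- the multiplicative operator `z ↦ z * ∏_{a=1}^{q-1} iotaMid (ζ^a) z`. -/
noncomputable def NormChar_T (q M0 : ℕ) [NeZero (q ^ 2 * M0)] (ζ : ℂˣ) :
    FF ℂ (q ^ 2 * M0) →* LaurentSeries ℂ where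
  toFun z := (z : LaurentSeries ℂ) * ∏ a ∈ Finset.Ico 1 q, EMB.iotaMid ℂ q M0 (ζ ^ a) z
  map_one' := by simp
  map_mul' x y := by
    simp only [map_mul, Finset.prod_mul_distrib, MulMemClass.coe_mul]
    ring

theorem NormChar_T_apply (ζ : ℂˣ) (z : FF ℂ (q ^ 2 * M0)) :
    NormChar_T q M0 ζ z =
      (z : LaurentSeries ℂ) * ∏ a ∈ Finset.Ico 1 q, EMB.iotaMid ℂ q M0 (ζ ^ a) z := rfl

theorem NormChar_T_ne_zero (ζ : ℂˣ) {z : FF ℂ (q ^ 2 * M0)} (hz : z ≠ 0) :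
    NormChar_T q M0 ζ z ≠ 0 := by
  rw [NormChar_T_apply]
  refine mul_ne_zero (fun h => hz (Subtype.ext h)) (Finset.prod_ne_zero_iff.2 fun a _ => ?_)
  exact (map_ne_zero_iff _ (EMB.iotaMid ℂ q M0 (ζ ^ a)).toRingHom.injective).2 hz

theorem NormChar_T_mem_of_modFun (hqM : ¬ q ∣ M0) (ζ : ℂˣ) (hζ : IsPrimitiveRoot ζ q)
    {a : ℍ → ℂ} {fa : LaurentSeries ℂ} (ha : IsModFun (q ^ 2 * M0) a) (hea : S28.IsExp 1 a fa)
    (hfa : fa ∈ FF ℂ (q ^ 2 * M0)) :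
    NormChar_T q M0 ζ ⟨fa, hfa⟩ ∈ FF ℂ (q ^ 2 * M0) :=
  IsModFun.mem_FF
    ((repsTr (q ^ 2 * M0) q ⟨M0, rfl⟩ (NeZero.ne _)).isModFun_mulFun (repsTr_isInt _ _) ha)
    (isExp_mulFun_repsTr hqM ζ hζ ha hea hfa)

theorem NormChar_T_mem (hqM : ¬ q ∣ M0) (ζ : ℂˣ) (hζ : IsPrimitiveRoot ζ q)
    (z : FF ℂ (q ^ 2 * M0)) : NormChar_T q M0 ζ z ∈ FF ℂ (q ^ 2 * M0) := by
  obtain ⟨a, b, fa, fb, ha, hb, hea, heb, hfb0, hufb⟩ := exists_modFun_frac z.2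
  have hfa : fa ∈ FF ℂ (q ^ 2 * M0) := IsModFun.mem_FF ha hea
  have hfb : fb ∈ FF ℂ (q ^ 2 * M0) := IsModFun.mem_FF hb heb
  have hfb0' : (⟨fb, hfb⟩ : FF ℂ (q ^ 2 * M0)) ≠ 0 := fun h => hfb0 (congrArg Subtype.val h)
  have h0 : z * ⟨fb, hfb⟩ = (⟨fa, hfa⟩ : FF ℂ (q ^ 2 * M0)) := Subtype.ext hufb
  have h1 : NormChar_T q M0 ζ z * NormChar_T q M0 ζ ⟨fb, hfb⟩ = NormChar_T q M0 ζ ⟨fa, hfa⟩ := by
    rw [← map_mul, h0]
  have h2 : NormChar_T q M0 ζ z = NormChar_T q M0 ζ ⟨fa, hfa⟩ / NormChar_T q M0 ζ ⟨fb, hfb⟩ := by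
    rw [eq_div_iff (NormChar_T_ne_zero ζ hfb0'), h1]
  rw [h2]
  exact div_mem (NormChar_T_mem_of_modFun hqM ζ hζ ha hea hfa)
    (NormChar_T_mem_of_modFun hqM ζ hζ hb heb hfb)

/-- the expansion of the norm, over `ℂ`. -/
theorem NormChar_coeffMap_normFF (hqM : ¬ q ∣ M0) (ι : Qb →+* ℂ) (ζ : Qbˣ)
    (hζ : IsPrimitiveRoot ζ q) (u : FF Qb (q ^ 2 * M0)) :
    coeffMap ι ((normFF Qb (N := q * M0) (N' := q ^ 2 * M0) ⟨q, by ring⟩ u : FF Qb (q * M0)) :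
        LaurentSeries Qb) =
      NormChar_T q M0 (Units.map (ι : Qb →* ℂ) ζ) (mapFF ι (q ^ 2 * M0) u) := by
  have hq : q.Prime := Fact.out
  rw [EMB.normFF_eq_prod hq hqM ζ hζ u, map_mul, map_prod, NormChar_T_apply, coe_mapFF]
  congr 1
  refine Finset.prod_congr rfl fun a ha => ?_
  have ha1 := (Finset.mem_Ico.1 ha).1
  have ha2 := (Finset.mem_Ico.1 ha).2
  have hprim : IsPrimitiveRoot (ζ ^ a) q :=
    hζ.pow_of_coprime a (Nat.coprime_of_lt_prime (by omega) ha2 hq).symm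
  rw [EMB.coeffMap_iotaMid (RingHom.id ℂ) ι hq hqM (ζ ^ a) hprim u, map_pow]

/-- (G3) PIECE W2c. -/
theorem hasChar_normFF (hqM : ¬ q ∣ M0) (ι : Qb →+* ℂ) {n : ℕ} [NeZero n]
    (u : FF Qb (q ^ 2 * M0)) {φ : Additive (Gamma0 (q ^ 2 * M0)) →+ ZMod n}
    (h : HasChar (q ^ 2 * M0) n (coeffMap ι (u : LaurentSeries Qb)) φ) :
    HasChar (q ^ 2 * M0) n
      (coeffMap ι ((normFF Qb (N := q * M0) (N' := q ^ 2 * M0) ⟨q, by ring⟩ u : FF Qb (q * M0)) :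
        LaurentSeries Qb))
      ((repsTr (q ^ 2 * M0) q ⟨M0, rfl⟩ (NeZero.ne _)).op (ZMod n) φ) := by
  have hq : q.Prime := Fact.out
  have : NeZero q := ⟨hq.ne_zero⟩
  have : NeZero ((q : ℕ) : Qb) := ⟨by exact_mod_cast hq.ne_zero⟩
  obtain ⟨ζ0, hζ0⟩ := HasEnoughRootsOfUnity.exists_primitiveRoot Qb q
  obtain ⟨ζ, rfl⟩ : ∃ ζ : Qbˣ, (ζ : Qb) = ζ0 := ⟨hζ0.isUnit (NeZero.ne q) |>.unit, rfl⟩
  have hζ : IsPrimitiveRoot ζ q := IsPrimitiveRoot.coe_units_iff.1 hζ0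
  have hζ' : IsPrimitiveRoot (Units.map (ι : Qb →* ℂ) ζ) q :=
    hζ.map_of_injective (Units.map_injective ι.injective)
  obtain ⟨c, w, f, hr, he, z, hz, hz0, hk⟩ := h
  have hfm : f ∈ FF ℂ (q ^ 2 * M0) := IsModFun.mem_FF hr.modFun he
  have hz0' : (⟨z, hz⟩ : FF ℂ (q ^ 2 * M0)) ≠ 0 := fun h => hz0 (congrArg Subtype.val h)
  refine ⟨(repsTr (q ^ 2 * M0) q ⟨M0, rfl⟩ (NeZero.ne _)).mulFun c,
    (repsTr (q ^ 2 * M0) q ⟨M0, rfl⟩ (NeZero.ne _)).mulFun w,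
    NormChar_T q M0 (Units.map (ι : Qb →* ℂ) ζ) ⟨f, hfm⟩,
    (repsTr (q ^ 2 * M0) q ⟨M0, rfl⟩ (NeZero.ne _)).hasRoot_mulFun (repsTr_isInt _ _) hr,
    isExp_mulFun_repsTr hqM _ hζ' hr.modFun he hfm,
    NormChar_T q M0 (Units.map (ι : Qb →* ℂ) ζ) ⟨z, hz⟩, NormChar_T_mem hqM _ hζ' _,
    NormChar_T_ne_zero _ hz0', ?_⟩
  have hu : mapFF ι (q ^ 2 * M0) u = (⟨f, hfm⟩ : FF ℂ (q ^ 2 * M0)) * ⟨z, hz⟩ ^ n :=
    Subtype.ext hk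
  rw [NormChar_coeffMap_normFF hqM ι ζ hζ u, hu, map_mul, map_pow]

end Fermat.Agent.GT.W
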