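import Fermat.Agent.GR.H.S30Main

/-!
# GT-W (S36 wiring), piece W4b : refinements of `GR.H.exists_bigRep` and `GR.H.exists_galoisRep`

We need the representation `ρ` of GR-H *together with* its relation to the finite levels
`D.gal k σ`.
-/

set_option autoImplicit false

open Polynomial
open scoped TensorProduct

namespace Fermat.Agent.GT.W

open Fermat.Agent.GR.H

variable {N : ℕ} [NeZero N] {p : ℕ}

/-- `GR.H.exists_bigRep`, remembering the congruences which define `r`. -/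
theorem exists_bigRep_cong (D : TateData N p) (𝒪 : Type) [CommRing 𝒪] [IsLocalRing 𝒪]
    [IsNoetherianRing 𝒪] [IsAdicComplete (IsLocalRing.maximalIdeal 𝒪) 𝒪]
    (hp : (p : 𝒪) ∈ IsLocalRing.maximalIdeal 𝒪) :
    ∃ B : BigRep D 𝒪, ∀ σ k, Limit_Cong (p : 𝒪) k (B.r σ) ((D.gal k σ).baseChange 𝒪) := by
  have hcomplete : IsAdicComplete (IsLocalRing.maximalIdeal 𝒪)
      (Module.End 𝒪 (𝒪 ⊗[ℤ] D.Λ)) :=
    IsAdicComplete.of_module_finite _ _
  have hex : ∀ σ : GQ, ∃ L : Module.End 𝒪 (𝒪 ⊗[ℤ] D.Λ),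
      ∀ k, Limit_Cong (p : 𝒪) k L ((D.gal k σ).baseChange 𝒪) := fun σ =>
    Limit_exists_limit (IsLocalRing.maximalIdeal 𝒪) hp _
      (fun k => Limit_cong_baseChange 𝒪 (D.gal_succ k σ))
  choose r hr using hex
  have heq : ∀ {a b : Module.End 𝒪 (𝒪 ⊗[ℤ] D.Λ)}, (∀ k, Limit_Cong (p : 𝒪) k a b) → a = b :=
    fun h => Limit_eq_of_forall_cong (IsLocalRing.maximalIdeal 𝒪) hp h
  have hone : r 1 = 1 := heq fun k => by
    have := (hr 1 k).trans (Limit_cong_baseChange 𝒪 (D.gal_one k))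
    rwa [LinearMap.baseChange_one] at this
  have hmul : ∀ σ τ, r (σ * τ) = r σ * r τ := fun σ τ => heq fun k => by
    have := (hr (σ * τ) k).trans (Limit_cong_baseChange 𝒪 (D.gal_mul k σ τ))
    rw [LinearMap.baseChange_mul] at this
    exact this.trans ((hr σ k).mul (hr τ k)).symm
  refine ⟨{ r := { toFun := r, map_one' := hone, map_mul' := hmul }
            comm_hecke := ?_, conj := ?_, unram := ?_, frob := ?_, level := ?_ }, hr⟩
  · intro σ t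
    refine heq fun k => ?_
    have h1 := (hr σ k).mul (Limit_Cong.refl (π := (p : 𝒪)) (k := k) ((D.hecke t).baseChange 𝒪))
    have h2 := (Limit_Cong.refl (π := (p : 𝒪)) (k := k) ((D.hecke t).baseChange 𝒪)).mul (hr σ k)
    have h3 := Limit_cong_baseChange 𝒪 (D.gal_hecke k σ t)
    rw [LinearMap.baseChange_mul, LinearMap.baseChange_mul] at h3
    exact h1.trans (h3.trans h2.symm)
  · obtain ⟨c, hc⟩ := D.gal_conj
    exact ⟨c, heq fun k => (hr c k).trans (Limit_cong_baseChange 𝒪 (hc k))⟩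
  · intro q hq hqN hqp A hA σ hσ
    refine heq fun k => ?_
    have := (hr σ k).trans (Limit_cong_baseChange 𝒪 (D.gal_unram q hq hqN hqp A hA σ hσ k))
    rwa [LinearMap.baseChange_one] at this
  · intro ℓ hℓ hℓN hℓp A hA σ hσ
    refine heq fun k => ?_
    have h3 := Limit_cong_baseChange 𝒪 (D.gal_frob ℓ hℓ hℓN hℓp A hA σ hσ k)
    have hl : ((ℓ : ℤ) • (1 : Module.End ℤ D.Λ)).baseChange 𝒪 =
        (ℓ : 𝒪) • (1 : Module.End 𝒪 (𝒪 ⊗[ℤ] D.Λ)) := by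
      rw [LinearMap.baseChange_smul, LinearMap.baseChange_one,
        ← IsScalarTower.algebraMap_smul 𝒪 (ℓ : ℤ) (1 : Module.End 𝒪 (𝒪 ⊗[ℤ] D.Λ))]
      simp
    rw [LinearMap.baseChange_add, LinearMap.baseChange_sub, LinearMap.baseChange_mul, LinearMap.baseChange_mul, hl,
      LinearMap.baseChange_zero] at h3
    refine Limit_Cong.trans ?_ h3
    exact (((hr σ k).mul (hr σ k)).sub ((Limit_Cong.refl _).mul (hr σ k))).add (Limit_Cong.refl _)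
  · intro k
    obtain ⟨L, hL, hfix⟩ := D.gal_level k
    refine ⟨L, hL, fun σ hσ => ?_⟩
    have := (hr σ k).trans (Limit_cong_baseChange 𝒪 (hfix σ hσ))
    rwa [LinearMap.baseChange_one] at this

/-- The first half of `GR.H.exists_galoisRep`, for a given model `(B, ρ, ι)` of the eigenspace. -/
theorem charpoly_of_eigenRep (cheb : FrobeniusDensity) [Fact p.Prime]
    (D : TateData N p) (𝒪 : Type) [CommRing 𝒪] [IsDomain 𝒪] [IsDiscreteValuationRing 𝒪]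
    [IsAdicComplete (IsLocalRing.maximalIdeal 𝒪) 𝒪] [CharZero 𝒪]
    (hp : (p : 𝒪) ∈ IsLocalRing.maximalIdeal 𝒪) (lam : HeckeFull N →+* 𝒪)
    (B : BigRep D 𝒪) (ρ : GaloisRepAdic 𝒪) (ι : ρ.V →ₗ[𝒪] 𝒪 ⊗[ℤ] D.Λ)
    (hinj : Function.Injective ι) (hrange : LinearMap.range ι = eigenSub D.hecke 𝒪 lam)
    (hι : ∀ σ v, ι (ρ.ρ σ v) = B.r σ (ι v)) :
    ∀ (ℓ : ℕ) (hℓ : ℓ.Prime) (hℓN : ¬ ℓ ∣ N), ℓ ≠ p →
      ∀ A : ValuationSubring (AlgebraicClosure ℚ), A.LiesOverPrime ℓ →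
        ∀ σ : GQ, A.IsFrobeniusAt σ ℓ →
          LinearMap.charpoly (ρ.ρ σ) =
            X ^ 2 - C (lam (HeckeFull.T hℓ hℓN)) * X + C ((ℓ : 𝒪)) := by
  classical
  have hmem : ∀ v, ι v ∈ eigenSub D.hecke 𝒪 lam := fun v => hrange ▸ LinearMap.mem_range_self ι v
  let S : Finset ℕ := insert p N.primeFactors
  let a : ℕ → 𝒪 := fun ℓ => if h : ℓ.Prime ∧ ¬ ℓ ∣ N then lam (HeckeFull.T h.1 h.2) else 0
  have hS : ∀ ℓ : ℕ, ℓ.Prime → (ℓ ∉ S ↔ ℓ ≠ p ∧ ¬ ℓ ∣ N) := by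
    intro ℓ hℓ
    simp [S, Nat.mem_primeFactors, hℓ, NeZero.ne N, not_or]
  have hES : ∀ ℓ : ℕ, ℓ.Prime → ℓ ∉ S → ∀ A : ValuationSubring (AlgebraicClosure ℚ),
      A.LiesOverPrime ℓ → ∀ σ : GQ, A.IsFrobeniusAt σ ℓ →
        ρ.ρ σ * ρ.ρ σ - a ℓ • ρ.ρ σ + (ℓ : 𝒪) • 1 = 0 := by
    intro ℓ hℓ hℓS A hA σ hσ
    obtain ⟨hℓp, hℓN⟩ := (hS ℓ hℓ).mp hℓS
    have ha : a ℓ = lam (HeckeFull.T hℓ hℓN) := by
      simp only [a]; rw [dif_pos ⟨hℓ, hℓN⟩]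
    have hfrob := B.frob ℓ hℓ hℓN hℓp A hA σ hσ
    refine LinearMap.ext fun v => hinj ?_
    have h1 := LinearMap.congr_fun hfrob (ι v)
    have h2 := (mem_eigenSub D.hecke 𝒪 lam _).mp (hmem (ρ.ρ σ v)) (HeckeFull.T hℓ hℓN)
    simp only [LinearMap.add_apply, LinearMap.sub_apply, Module.End.mul_apply,
      LinearMap.smul_apply, Module.End.one_apply, LinearMap.zero_apply, map_add, map_sub,
      map_smul, map_zero, hι, ha] at h1 h2 ⊢
    rw [h2] at h1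
    exact h1
  have hc : ∃ (c : GQ) (x y : ρ.V), x ≠ 0 ∧ y ≠ 0 ∧ ρ.ρ c x = x ∧ ρ.ρ c y = -y := by
    obtain ⟨c, hc⟩ := B.conj
    obtain ⟨x', hx', hx0⟩ := exists_ne_zero_of_finrank_eq_one _ (finrank_eigenSubSign D 𝒪 lam 1)
    obtain ⟨y', hy', hy0⟩ :=
      exists_ne_zero_of_finrank_eq_one _ (finrank_eigenSubSign D 𝒪 lam (-1))
    rw [mem_eigenSubSign] at hx' hy'
    obtain ⟨x, rfl⟩ : x' ∈ LinearMap.range ι := hrange ▸ hx'.1
    obtain ⟨y, rfl⟩ : y' ∈ LinearMap.range ι := hrange ▸ hy'.1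
    refine ⟨c, x, y, fun h => hx0 (by rw [h, map_zero]), fun h => hy0 (by rw [h, map_zero]),
      hinj ?_, hinj ?_⟩
    · rw [hι, hc, hx'.2]; simp
    · rw [hι, hc, hy'.2]; simp
  intro ℓ hℓ hℓN hℓp A hA σ hσ
  have key := charpoly_frobenius cheb p 𝒪 hp ρ S (Finset.mem_insert_self _ _) a hES hc ℓ hℓ
    ((hS ℓ hℓ).mpr ⟨hℓp, hℓN⟩) A hA σ hσ
  have ha : a ℓ = lam (HeckeFull.T hℓ hℓN) := by
    simp only [a]; rw [dif_pos ⟨hℓ, hℓN⟩]
  rw [key, ha]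

end Fermat.Agent.GT.W
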