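import Fermat.Agent.GT.W.TrForm

/-!
# GT-W (S36 wiring), piece W1b : the trace operator commutes with `T_ℓ`, `ℓ ∤ M`

`(T_ℓ f) = ∑_x f | α_x` (`CuspForm.coe_heckeTLin_apply`, `heckeT_eq_sum_onePoint`, see
`GR/B/Period.lean : periodMap_heckeT`), `x ∈ ℙ¹(𝔽_ℓ)`, `α_x = heckeRep ℓ x`.
`heckeRep_mul` (level `M/q`, see `GR/B/Concrete.lean : repsT`): `α_x δ_j = c_{x,j} α_{x'}`, `c_{x,j} ∈ Γ₀(M/q)`,
`x' = π_j x`.  Write `c_{x,j} = γ δ_{κ}` with `γ ∈ Γ₀(M)` (`delta_mul_mem` with `j = 0`).  The map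
`(x, j) ↦ (π_j x, κ)` is injective: the lower left entry of `α [[1,0],[c,1]] α'⁻¹` is `d d' c / ℓ`
(`α = [[a,b],[0,d]]`), so it is divisible by `M` only if `q ∣ j₁ - j₂` (`delta_mul_inv_mem_iff`).
-/

set_option autoImplicit false

open CongruenceSubgroup Matrix.SpecialLinearGroup UpperHalfPlane
open scoped MatrixGroups ModularForm

namespace Fermat.Agent.GT.W

open Fermat.Agent.GR.B

open P2MW.S_ModularForm_heckeT_slash_eq_self_of_mem_Gamma0.ModularForm.HeckeSlashInvariance in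
/-- the lower left entries in a relation `α_{x₁} g = γ α_{x₂}`. -/
theorem TrComm_entry {ℓ : ℕ} (hℓ0 : ℓ ≠ 0) (x₁ x₂ : OnePoint (ZMod ℓ)) (g γ : SL(2, ℤ))
    (hrel : heckeRep ℓ x₁ * mapGL ℝ g = mapGL ℝ γ * heckeRep ℓ x₂) :
    γ 1 0 ∣ (ℓ : ℤ) * g 1 0 := by
  have h10 := congrArg (fun A : GL (Fin 2) ℝ => (A : Matrix (Fin 2) (Fin 2) ℝ) 1 0) hrel
  induction x₁ using OnePoint.rec <;> induction x₂ using OnePoint.rec <;>
  simp [Matrix.mul_apply, Fin.sum_univ_two, hℓ0] at h10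
  · have h : g 1 0 = γ 1 0 * (ℓ : ℤ) := by exact_mod_cast h10
    rw [h]
    exact ⟨(ℓ : ℤ) * (ℓ : ℤ), by ring⟩
  · rw [h10]
    exact Dvd.intro_left _ rfl
  · have h : (ℓ : ℤ) * g 1 0 = γ 1 0 * (ℓ : ℤ) := by exact_mod_cast h10
    rw [h]
    exact Dvd.intro _ rfl
  · have h : (ℓ : ℤ) * g 1 0 = γ 1 0 := by exact_mod_cast h10
    rw [h]

variable {M q : ℕ} [NeZero M] [Fact q.Prime]

open P2MW.S_ModularForm_heckeT_slash_eq_self_of_mem_Gamma0.ModularForm.HeckeSlashInvariance in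
/-- the relation `α_x δ_j = γ δ_κ α_{π_j x}`. -/
theorem TrComm_rel (h : q ^ 2 ∣ M) {ℓ : ℕ} [Fact ℓ.Prime] (hℓM : ¬ ℓ ∣ M) (j : ZMod q)
    (x : OnePoint (ZMod ℓ)) :
    ∃ (κ : ZMod q) (γ : SL(2, ℤ)), γ ∈ Gamma0 M ∧
      heckeRep ℓ x * mapGL ℝ (delta M q j) =
        mapGL ℝ γ * (mapGL ℝ (delta M q κ) * heckeRep ℓ (redMatrix ℓ (delta M q j) • x)) := by
  have hM : M ≠ 0 := NeZero.ne M
  have hqM : q ∣ M := dvd_trans (dvd_pow_self q two_ne_zero) h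
  have hℓ' : ¬ ℓ ∣ M / q := fun hd => hℓM (dvd_trans hd (Nat.div_dvd_of_dvd hqM))
  have hδ : ((M / q : ℕ) : ℤ) ∣ (delta M q j) 1 0 := by
    simp [delta, lowU]
  obtain ⟨c, hc, hrel⟩ := heckeRep_mul hℓ' (delta M q j) hδ x
  have hc' : c ∈ Gamma0 (M / q) := mem_Gamma0_of_dvd hc
  have h0 : delta M q 0 = 1 := by
    ext i k
    fin_cases i <;> fin_cases k <;> simp [delta, lowU]
  have hmem := delta_mul_mem h hM hc' 0
  rw [h0, one_mul] at hmem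
  refine ⟨trIdx M q c 0, _, hmem, ?_⟩
  rw [hrel, ← mul_assoc, ← map_mul, inv_mul_cancel_right]

open P2MW.S_ModularForm_heckeT_slash_eq_self_of_mem_Gamma0.ModularForm.HeckeSlashInvariance in
/-- the identity of functions. -/
theorem TrComm_sum (h : q ^ 2 ∣ M) {ℓ : ℕ} [Fact ℓ.Prime] (hℓM : ¬ ℓ ∣ M) (f : ℍ → ℂ)
    (hf : ∀ γ ∈ Gamma0 M, f ∣[(2 : ℤ)] (mapGL ℝ γ) = f) :
    ∑ j : ZMod q, ∑ x : OnePoint (ZMod ℓ), f ∣[(2 : ℤ)] (heckeRep ℓ x * mapGL ℝ (delta M q j)) =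
      ∑ x : OnePoint (ZMod ℓ), ∑ j : ZMod q,
        f ∣[(2 : ℤ)] (mapGL ℝ (delta M q j) * heckeRep ℓ x) := by
  have hM : M ≠ 0 := NeZero.ne M
  have hℓ0 : ℓ ≠ 0 := (Fact.out : ℓ.Prime).ne_zero
  choose κ γ hγ hrel using TrComm_rel (M := M) (q := q) h hℓM
  let Φ : ZMod q × OnePoint (ZMod ℓ) → OnePoint (ZMod ℓ) × ZMod q :=
    fun p => (redMatrix ℓ (delta M q p.1) • p.2, κ p.1 p.2)
  have hinj : Function.Injective Φ := by
    rintro ⟨j₁, x₁⟩ ⟨j₂, x₂⟩ hΦ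
    have hx : redMatrix ℓ (delta M q j₁) • x₁ = redMatrix ℓ (delta M q j₂) • x₂ :=
      congrArg Prod.fst hΦ
    have hκ : κ j₁ x₁ = κ j₂ x₂ := congrArg Prod.snd hΦ
    have h1 := hrel j₁ x₁
    have h2 := hrel j₂ x₂
    rw [hx, hκ] at h1
    have h3 : heckeRep ℓ x₁ * mapGL ℝ (delta M q j₁ * (delta M q j₂)⁻¹) =
        mapGL ℝ (γ j₁ x₁ * (γ j₂ x₂)⁻¹) * heckeRep ℓ x₂ := by
      rw [map_mul, map_mul, map_inv, map_inv, ← mul_assoc, h1, mul_assoc (mapGL ℝ (γ j₁ x₁)),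
        mul_assoc (mapGL ℝ (γ j₁ x₁))]
      congr 1
      rw [eq_inv_mul_iff_mul_eq, ← mul_assoc, ← h2, mul_inv_cancel_right]
    have h4 := TrComm_entry hℓ0 _ _ _ _ h3
    have h5 : (M : ℤ) ∣ (γ j₁ x₁ * (γ j₂ x₂)⁻¹) 1 0 :=
      dvd_of_mem_Gamma0 ⟨_, mul_mem (hγ j₁ x₁) (inv_mem (hγ j₂ x₂))⟩
    have hcop : IsCoprime (M : ℤ) (ℓ : ℤ) :=
      Nat.isCoprime_iff_coprime.mpr ((Nat.Prime.coprime_iff_not_dvd Fact.out).mpr hℓM).symm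
    have h6 : (M : ℤ) ∣ (delta M q j₁ * (delta M q j₂)⁻¹) 1 0 :=
      hcop.dvd_of_dvd_mul_left (dvd_trans h5 h4)
    have hj : j₁ = j₂ := (delta_mul_inv_mem_iff h hM j₁ j₂).1 (mem_Gamma0_of_dvd h6)
    subst hj
    rw [MulAction.injective _ hx]
  have hbij : Function.Bijective Φ := by
    rw [Fintype.bijective_iff_injective_and_card]
    exact ⟨hinj, by rw [Fintype.card_prod, Fintype.card_prod, mul_comm]⟩
  rw [← Fintype.sum_prod_type', ← Fintype.sum_prod_type']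
  refine Fintype.sum_bijective Φ hbij _ _ ?_
  rintro ⟨j, x⟩
  show f ∣[(2 : ℤ)] (heckeRep ℓ x * mapGL ℝ (delta M q j)) =
    f ∣[(2 : ℤ)] (mapGL ℝ (delta M q (κ j x)) * heckeRep ℓ (redMatrix ℓ (delta M q j) • x))
  rw [hrel j x, SlashAction.slash_mul, hf _ (hγ j x)]

open P2MW.S_ModularForm_heckeT_slash_eq_self_of_mem_Gamma0.ModularForm.HeckeSlashInvariance in
/-- PIECE W1b. -/
theorem trOp_comm_heckeT (h : q ^ 2 ∣ M) {ℓ : ℕ} (hℓ : ℓ.Prime) (hℓM : ¬ ℓ ∣ M) :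
    trOp h * CuspForm.heckeTLin 2 hℓ hℓM = CuspForm.heckeTLin 2 hℓ hℓM * trOp h := by
  have : Fact ℓ.Prime := ⟨hℓ⟩
  refine LinearMap.ext fun f => DFunLike.coe_injective ?_
  rw [Module.End.mul_apply, Module.End.mul_apply, coe_trOp, CuspForm.coe_heckeTLin_apply,
    CuspForm.coe_heckeTLin_apply, coe_trOp, heckeT_eq_sum_onePoint, heckeT_eq_sum_onePoint]
  simp only [SlashAction.sum_slash, ← SlashAction.slash_mul]
  refine TrComm_sum h hℓM f fun γ hγ => ?_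
  exact SlashInvariantForm.slash_action_eqn f _ (Subgroup.mem_map_of_mem (mapGL ℝ) hγ)

end Fermat.Agent.GT.W
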