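import Fermat.Agent.GT.W.TrReps
import Fermat.Agent.GR.B.Period

/-!
# GT-W (S36 wiring), piece W1a : the trace operator on `S₂(Γ₀(M))`, lowering the level

* `exists_lower` : a cusp form of level `M` invariant under `Γ₀(M')`, `M' ∣ M`, is a cusp form of
  level `M'` (same function; the cusps of `Γ₀(M')` and `Γ₀(M)` agree, finite index).
* `trOp` : `f ↦ ∑_j f | δ_j`, an endomorphism of `S₂(Γ₀(M))`, with values invariant under `Γ₀(M/q)`.
* `U_q f` is invariant under `Γ₀(M/q)` if `q² ∣ M`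
  (`heckeMatrix_mul_of_dvd` of the Prelude `Sol` file used in `GR/B/Concrete.lean` gives
  `α_x γ = γ' α_{x'}` with `γ' 1 0 = q * γ 1 0`).
Mathlib: `CuspForm.translate`, `CuspForm.trace` (NormTrace.lean) show how to treat the cusps.
-/

set_option autoImplicit false

open CongruenceSubgroup Matrix.SpecialLinearGroup UpperHalfPlane
open scoped MatrixGroups ModularForm

namespace Fermat.Agent.GT.W

open Fermat.Agent.GR.B

theorem exists_lower {M M' : ℕ} [NeZero M] (hM' : M' ∣ M) (f : CuspForm (Gamma0 M) 2)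
    (hinv : ∀ γ ∈ Gamma0 M', (⇑f) ∣[(2 : ℤ)] (mapGL ℝ γ) = ⇑f) :
    ∃ f' : CuspForm (Gamma0 M') 2, (⇑f' : ℍ → ℂ) = ⇑f := by
  have : NeZero M' := ⟨fun h => NeZero.ne M (by rw [h] at hM'; exact Nat.eq_zero_of_zero_dvd hM')⟩
  refine ⟨{ toFun := f
            slash_action_eq' := ?_
            holo' := f.holo'
            zero_at_cusps' := ?_ }, rfl⟩
  · rintro γ ⟨γ', hγ', rfl⟩
    exact hinv γ' hγ'
  · intro c hc γ hγ
    refine f.zero_at_cusps' ?_ γ hγ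
    rw [Subgroup.IsArithmetic.isCusp_iff_isCusp_SL2Z] at hc ⊢
    exact hc

variable {M q : ℕ} [NeZero M] [Fact q.Prime]

omit [NeZero M] in
theorem TrForm_slash_mem (f : CuspForm (Gamma0 M) 2) {γ : SL(2, ℤ)} (hγ : γ ∈ Gamma0 M) :
    (⇑f) ∣[(2 : ℤ)] (mapGL ℝ γ) = ⇑f :=
  f.slash_action_eq' _ ⟨γ, hγ, rfl⟩

theorem TrForm_sum_slash (h : q ^ 2 ∣ M) (f : CuspForm (Gamma0 M) 2) (γ : SL(2, ℤ))
    (hγ : γ ∈ Gamma0 (M / q)) :
    (∑ j : ZMod q, (⇑f) ∣[(2 : ℤ)] (mapGL ℝ (delta M q j))) ∣[(2 : ℤ)] (mapGL ℝ γ) =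
      ∑ j : ZMod q, (⇑f) ∣[(2 : ℤ)] (mapGL ℝ (delta M q j)) := by
  have hM : M ≠ 0 := NeZero.ne M
  rw [SlashAction.sum_slash]
  rw [← Equiv.sum_comp (trPerm h hM ⟨γ, hγ⟩)
    (fun j => (⇑f) ∣[(2 : ℤ)] (mapGL ℝ (delta M q j)))]
  refine Finset.sum_congr rfl fun j _ => ?_
  have h1 := delta_mul_mem h hM hγ j
  have h2 : delta M q j * γ =
      (delta M q j * γ * (delta M q (trIdx M q γ j))⁻¹) * delta M q (trIdx M q γ j) := by
    rw [inv_mul_cancel_right]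
  rw [← SlashAction.slash_mul, ← map_mul, h2, map_mul, SlashAction.slash_mul,
    TrForm_slash_mem f h1]
  rfl

theorem exists_trOp (h : q ^ 2 ∣ M) :
    ∃ T : Module.End ℂ (CuspForm (Gamma0 M) 2), ∀ f : CuspForm (Gamma0 M) 2,
      (⇑(T f) : ℍ → ℂ) = ∑ j : ZMod q, (⇑f) ∣[(2 : ℤ)] (mapGL ℝ (delta M q j)) := by
  let T0 : CuspForm (Gamma0 M) 2 → CuspForm (Gamma0 M) 2 := fun f =>
    { toFun := ∑ j : ZMod q, (⇑f) ∣[(2 : ℤ)] (mapGL ℝ (delta M q j))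
      slash_action_eq' := by
        rintro γ ⟨γ', hγ', rfl⟩
        exact TrForm_sum_slash h f γ' (Gamma0_le_div h hγ')
      holo' := .sum fun j _ => (CuspForm.translate f (mapGL ℝ (delta M q j))).holo'
      zero_at_cusps' := by
        intro c hc γ hγ
        rw [IsZeroAtImInfty, Filter.ZeroAtFilter, SlashAction.sum_slash, Finset.sum_fn]
        rw [show (0 : ℂ) = ∑ _j : ZMod q, 0 by simp]
        refine tendsto_finsetSum _ fun j _ => ?_
        refine (CuspForm.translate f (mapGL ℝ (delta M q j))).zero_at_cusps' ?_ γ hγ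
        rw [Subgroup.IsArithmetic.isCusp_iff_isCusp_SL2Z] at hc
        exact hc.of_isFiniteRelIndex_conj (inv_mem ⟨delta M q j, rfl⟩) }
  have hT0 : ∀ f, (⇑(T0 f) : ℍ → ℂ) =
      ∑ j : ZMod q, (⇑f) ∣[(2 : ℤ)] (mapGL ℝ (delta M q j)) := fun f => rfl
  refine ⟨{ toFun := T0, map_add' := ?_, map_smul' := ?_ }, hT0⟩
  · intro f g
    apply DFunLike.coe_injective
    rw [FunLike.coe_add, hT0, hT0, hT0, FunLike.coe_add, ← Finset.sum_add_distrib]
    exact Finset.sum_congr rfl fun j _ => SlashAction.add_slash _ _ _ _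
  · intro c f
    apply DFunLike.coe_injective
    rw [RingHom.id_apply, FunLike.coe_smul, hT0, hT0, FunLike.coe_smul, Finset.smul_sum]
    refine Finset.sum_congr rfl fun j _ => ?_
    rw [ModularForm.smul_slash]
    have hσ : σ (mapGL ℝ (delta M q j)) = .refl ℝ ℂ := by
      rw [σ, if_pos (by simp)]
    rw [hσ]
    rfl

/-- The trace operator `f ↦ ∑_j f | δ_j`. -/
noncomputable def trOp (h : q ^ 2 ∣ M) : Module.End ℂ (CuspForm (Gamma0 M) 2) :=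
  (exists_trOp h).choose

theorem coe_trOp (h : q ^ 2 ∣ M) (f : CuspForm (Gamma0 M) 2) :
    (⇑(trOp h f) : ℍ → ℂ) = ∑ j : ZMod q, (⇑f) ∣[(2 : ℤ)] (mapGL ℝ (delta M q j)) :=
  (exists_trOp h).choose_spec f

theorem trOp_slash (h : q ^ 2 ∣ M) (f : CuspForm (Gamma0 M) 2) (γ : SL(2, ℤ))
    (hγ : γ ∈ Gamma0 (M / q)) : (⇑(trOp h f)) ∣[(2 : ℤ)] (mapGL ℝ γ) = ⇑(trOp h f) := by
  rw [coe_trOp]
  exact TrForm_sum_slash h f γ hγ

open P2MW.S_ModularForm_heckeT_slash_eq_self_of_mem_Gamma0.ModularForm.HeckeSlashInvariance in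
theorem heckeU_slash (h : q ^ 2 ∣ M) (hqM : q ∣ M) (f : CuspForm (Gamma0 M) 2) (γ : SL(2, ℤ))
    (hγ : γ ∈ Gamma0 (M / q)) :
    (⇑(CuspForm.heckeULin 2 hqM f)) ∣[(2 : ℤ)] (mapGL ℝ γ) = ⇑(CuspForm.heckeULin 2 hqM f) := by
  have hq0 : q ≠ 0 := (Fact.out : q.Prime).ne_zero
  have : NeZero q := ⟨hq0⟩
  have hd : ((M / q : ℕ) : ℤ) ∣ γ 1 0 :=
    (ZMod.intCast_zmod_eq_zero_iff_dvd _ _).mp (Gamma0_mem.mp hγ)
  have hqq : q ∣ M / q := by
    obtain ⟨c, rfl⟩ := h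
    rw [pow_two, mul_assoc, Nat.mul_div_cancel_left _ (Nat.pos_of_ne_zero hq0)]
    exact dvd_mul_right _ _
  have hc : (q : ℤ) ∣ γ 1 0 := (Int.natCast_dvd_natCast.mpr hqq).trans hd
  have hc0 : ((γ 1 0 : ℤ) : ZMod q) = 0 := (ZMod.intCast_zmod_eq_zero_iff_dvd _ _).mpr hc
  rw [CuspForm.coe_heckeULin_apply, heckeU_eq_sum_zmod, SlashAction.sum_slash]
  rw [← Equiv.sum_comp (affinePerm γ hc0)
    (fun x : ZMod q => (⇑f) ∣[(2 : ℤ)] (ModularForm.heckeMatrix q x.val))]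
  refine Finset.sum_congr rfl fun x _ => ?_
  obtain ⟨g', hg', hrel⟩ := heckeMatrix_mul_of_dvd γ hc x
  have hg'M : g' ∈ Gamma0 M := by
    apply mem_Gamma0_of_dvd
    rw [hg']
    have : (M : ℤ) = (q : ℤ) * ((M / q : ℕ) : ℤ) := by
      rw [← Nat.cast_mul, Nat.mul_div_cancel' hqM]
    rw [this]
    exact mul_dvd_mul_left _ hd
  rw [← SlashAction.slash_mul, hrel, SlashAction.slash_mul, TrForm_slash_mem f hg'M]

end Fermat.Agent.GT.W
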