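import Fermat.Agent.GR.B.HeckeFun

/-!
# GT-W (S36 wiring), piece W2a : the trace correspondence `Γ₀(M) \ Γ₀(M/q)`, `q² ∣ M`

Coset representatives `δ_j = [[1,0],[j M/q,1]]`, `j ∈ ℤ/q`.  For `γ = [[a,b],[(M/q) c',d]] ∈ Γ₀(M/q)`:
`δ_j γ = γ' δ_{j'}` with `γ' ∈ Γ₀(M)` and `j' = a² j + a c'` (note `a d ≡ 1 mod q`, `M ∣ (M/q)²`).
-/

set_option autoImplicit false

open CongruenceSubgroup Matrix.SpecialLinearGroup UpperHalfPlane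
open scoped MatrixGroups

namespace Fermat.Agent.GT.W

open Fermat.Agent.GR.B

/-- `[[1,0],[c,1]]`. -/
def lowU (c : ℤ) : SL(2, ℤ) := ⟨!![1, 0; c, 1], by simp [Matrix.det_fin_two_of]⟩

variable (M q : ℕ) [Fact q.Prime]

/-- coset representatives of `Γ₀(M) \ Γ₀(M/q)` (`q² ∣ M`). -/
def delta (j : ZMod q) : SL(2, ℤ) := lowU ((j.val : ℤ) * ((M / q : ℕ) : ℤ))

/-- `j ↦ a² j + a c'`, where `γ = [[a,b],[(M/q) c',d]]`. -/
def trIdx (γ : SL(2, ℤ)) (j : ZMod q) : ZMod q :=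
  ((γ 0 0 : ℤ) : ZMod q) ^ 2 * j +
    ((γ 0 0 : ℤ) : ZMod q) * ((γ 1 0 / ((M / q : ℕ) : ℤ) : ℤ) : ZMod q)

variable {M q}

theorem TrReps_entry (x y : ℤ) (γ : SL(2, ℤ)) :
    (lowU x * γ * (lowU y)⁻¹) 1 0 = x * γ 0 0 + γ 1 0 - y * (x * γ 0 1 + γ 1 1) := by
  simp only [lowU, Matrix.SpecialLinearGroup.coe_mul, Matrix.SpecialLinearGroup.SL2_inv_expl,
    Matrix.mul_apply, Fin.sum_univ_two, Matrix.of_apply,
    Matrix.cons_val', Matrix.cons_val_zero, Matrix.cons_val_one, Matrix.cons_val_fin_one]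
  ring

/-- arithmetic of `c₀ = M / q`. -/
theorem TrReps_arith (h : q ^ 2 ∣ M) (hM : M ≠ 0) :
    (M : ℤ) = (q : ℤ) * ((M / q : ℕ) : ℤ) ∧ (∃ c₁ : ℤ, ((M / q : ℕ) : ℤ) = (q : ℤ) * c₁) ∧
      ((M / q : ℕ) : ℤ) ≠ 0 := by
  obtain ⟨m, rfl⟩ := h
  have hq : 0 < q := (Fact.out : q.Prime).pos
  have h1 : q ^ 2 * m / q = q * m := by
    rw [pow_two, mul_assoc, Nat.mul_div_cancel_left _ hq]
  rw [h1]
  refine ⟨by push_cast; ring, ⟨(m : ℤ), by push_cast; ring⟩, ?_⟩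
  intro h0
  apply hM
  have h2 : q * m = 0 := by exact_mod_cast h0
  rw [pow_two, mul_assoc, h2, mul_zero]

/-- the entries of `γ ∈ Γ₀(M/q)`. -/
theorem TrReps_gamma (h : q ^ 2 ∣ M) (hM : M ≠ 0) {γ : SL(2, ℤ)} (hγ : γ ∈ Gamma0 (M / q)) :
    γ 1 0 = ((M / q : ℕ) : ℤ) * (γ 1 0 / ((M / q : ℕ) : ℤ)) ∧
      ((γ 0 0 : ℤ) : ZMod q) * ((γ 1 1 : ℤ) : ZMod q) = 1 := by
  obtain ⟨-, ⟨c₁, hc₁⟩, -⟩ := TrReps_arith h hM
  rw [Gamma0_mem, ZMod.intCast_zmod_eq_zero_iff_dvd] at hγ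
  have h1 : γ 1 0 = ((M / q : ℕ) : ℤ) * (γ 1 0 / ((M / q : ℕ) : ℤ)) := (Int.mul_ediv_cancel' hγ).symm
  refine ⟨h1, ?_⟩
  have hdet : γ 0 0 * γ 1 1 - γ 0 1 * γ 1 0 = 1 := by
    have := γ.det_coe
    rw [Matrix.det_fin_two] at this
    exact this
  have h2 : γ 0 0 * γ 1 1 = 1 + (q : ℤ) * (γ 0 1 * c₁ * (γ 1 0 / ((M / q : ℕ) : ℤ))) := by
    have h3 : γ 1 0 = (q : ℤ) * c₁ * (γ 1 0 / ((M / q : ℕ) : ℤ)) := by rw [← hc₁]; exact h1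
    linear_combination hdet + γ 0 1 * h3
  have h4 := congrArg (Int.cast : ℤ → ZMod q) h2
  push_cast at h4
  rw [h4, ZMod.natCast_self, zero_mul, add_zero]

theorem delta_mul_mem (h : q ^ 2 ∣ M) (hM : M ≠ 0) {γ : SL(2, ℤ)} (hγ : γ ∈ Gamma0 (M / q))
    (j : ZMod q) : delta M q j * γ * (delta M q (trIdx M q γ j))⁻¹ ∈ Gamma0 M := by
  obtain ⟨hMq, ⟨c₁, hc₁⟩, -⟩ := TrReps_arith h hM
  obtain ⟨hC, hAD⟩ := TrReps_gamma h hM hγ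
  rw [Gamma0_mem, ZMod.intCast_zmod_eq_zero_iff_dvd, delta, delta, TrReps_entry]
  set c₀ : ℤ := ((M / q : ℕ) : ℤ) with hc₀
  set C' : ℤ := γ 1 0 / c₀ with hC'
  set j' : ZMod q := trIdx M q γ j with hj'
  have hq : (q : ℤ) ∣ (j.val : ℤ) * γ 0 0 + C' - (j'.val : ℤ) * γ 1 1 := by
    rw [← ZMod.intCast_zmod_eq_zero_iff_dvd]
    push_cast
    rw [ZMod.natCast_zmod_val, ZMod.natCast_zmod_val, hj', trIdx]
    linear_combination (-((γ 0 0 : ℤ) : ZMod q) * j - ((C' : ℤ) : ZMod q)) * hAD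
  obtain ⟨t, ht⟩ := hq
  refine ⟨t - (j.val : ℤ) * (j'.val : ℤ) * c₁ * γ 0 1, ?_⟩
  rw [hMq]
  linear_combination hC + c₀ * ht - (j.val : ℤ) * (j'.val : ℤ) * c₀ * γ 0 1 * hc₁

theorem trIdx_mul (h : q ^ 2 ∣ M) (hM : M ≠ 0) {γ γ' : SL(2, ℤ)} (hγ : γ ∈ Gamma0 (M / q))
    (hγ' : γ' ∈ Gamma0 (M / q)) (j : ZMod q) :
    trIdx M q (γ * γ') j = trIdx M q γ' (trIdx M q γ j) := by
  obtain ⟨-, ⟨c₁, hc₁⟩, hc0⟩ := TrReps_arith h hM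
  obtain ⟨hC, hAD⟩ := TrReps_gamma h hM hγ
  obtain ⟨hC', -⟩ := TrReps_gamma h hM hγ'
  have e00 : (γ * γ') 0 0 = γ 0 0 * γ' 0 0 + γ 0 1 * γ' 1 0 := by
    simp only [Matrix.SpecialLinearGroup.coe_mul, Matrix.mul_apply, Fin.sum_univ_two]
  have e10 : (γ * γ') 1 0 = γ 1 0 * γ' 0 0 + γ 1 1 * γ' 1 0 := by
    simp only [Matrix.SpecialLinearGroup.coe_mul, Matrix.mul_apply, Fin.sum_univ_two]
  unfold trIdx
  rw [e00, e10]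
  set c₀ : ℤ := ((M / q : ℕ) : ℤ) with hc₀
  set c : ℤ := γ 1 0 / c₀ with hc
  set c' : ℤ := γ' 1 0 / c₀ with hc'
  have h1 : (γ 1 0 * γ' 0 0 + γ 1 1 * γ' 1 0) / c₀ = c * γ' 0 0 + γ 1 1 * c' := by
    have : γ 1 0 * γ' 0 0 + γ 1 1 * γ' 1 0 = c₀ * (c * γ' 0 0 + γ 1 1 * c') := by
      linear_combination γ' 0 0 * hC + γ 1 1 * hC'
    rw [this, Int.mul_ediv_cancel_left _ hc0]
  have h2 : ((γ' 1 0 : ℤ) : ZMod q) = 0 := by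
    rw [hC', hc₁]
    push_cast
    rw [ZMod.natCast_self]
    ring
  rw [h1]
  push_cast
  rw [h2]
  linear_combination (((γ' 0 0 : ℤ) : ZMod q) * ((c' : ℤ) : ZMod q)) * hAD

theorem trIdx_one (j : ZMod q) : trIdx M q 1 j = j := by
  simp [trIdx]

theorem Gamma0_le_div (h : q ^ 2 ∣ M) : Gamma0 M ≤ Gamma0 (M / q) := by
  intro γ hγ
  rw [Gamma0_mem, ZMod.intCast_zmod_eq_zero_iff_dvd] at hγ ⊢
  refine dvd_trans ?_ hγ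
  have hqM : q ∣ M := dvd_trans (dvd_pow_self q two_ne_zero) h
  exact_mod_cast Nat.div_dvd_of_dvd hqM

/-- the `δ_j` are pairwise inequivalent modulo `Γ₀(M)`. -/
theorem delta_mul_inv_mem_iff (h : q ^ 2 ∣ M) (hM : M ≠ 0) (i j : ZMod q) :
    delta M q i * (delta M q j)⁻¹ ∈ Gamma0 M ↔ i = j := by
  obtain ⟨hMq, -, hc0⟩ := TrReps_arith h hM
  have e : delta M q i * (delta M q j)⁻¹ = delta M q i * 1 * (delta M q j)⁻¹ := by rw [mul_one]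
  rw [e, Gamma0_mem, ZMod.intCast_zmod_eq_zero_iff_dvd, delta, delta, TrReps_entry]
  have e2 : (i.val : ℤ) * ((M / q : ℕ) : ℤ) * (1 : SL(2, ℤ)) 0 0 + (1 : SL(2, ℤ)) 1 0 -
      (j.val : ℤ) * ((M / q : ℕ) : ℤ) *
        ((i.val : ℤ) * ((M / q : ℕ) : ℤ) * (1 : SL(2, ℤ)) 0 1 + (1 : SL(2, ℤ)) 1 1)
      = ((i.val : ℤ) - (j.val : ℤ)) * ((M / q : ℕ) : ℤ) := by
    simp only [Matrix.SpecialLinearGroup.coe_one, Matrix.one_apply_eq, ne_eq, one_ne_zero,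
      not_false_eq_true, Matrix.one_apply_ne, zero_ne_one]
    ring
  rw [e2, hMq, mul_dvd_mul_iff_right hc0, ← ZMod.intCast_zmod_eq_zero_iff_dvd]
  push_cast
  rw [ZMod.natCast_zmod_val, ZMod.natCast_zmod_val, sub_eq_zero]

/-- the permutation of the cosets induced by `γ ∈ Γ₀(M/q)`. -/
def trPerm (h : q ^ 2 ∣ M) (hM : M ≠ 0) (γ : Gamma0 (M / q)) : Equiv.Perm (ZMod q) where
  toFun := trIdx M q (γ : SL(2, ℤ))
  invFun := trIdx M q ((γ⁻¹ : Gamma0 (M / q)) : SL(2, ℤ))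
  left_inv j := by
    rw [← trIdx_mul h hM γ.2 (γ⁻¹).2, ← Subgroup.coe_mul, mul_inv_cancel, Subgroup.coe_one,
      trIdx_one]
  right_inv j := by
    rw [← trIdx_mul h hM (γ⁻¹).2 γ.2, ← Subgroup.coe_mul, inv_mul_cancel, Subgroup.coe_one,
      trIdx_one]

variable (M q)

/-- The trace correspondence `res ∘ cor` for `Γ₀(M) ⊆ Γ₀(M/q)`. -/
noncomputable def repsTr (h : q ^ 2 ∣ M) (hM : M ≠ 0) : Reps M where
  ι := ZMod q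
  fin := inferInstance
  α j := mapGL ℝ (delta M q j)
  det_pos j := by simp
  perm γ := trPerm h hM ⟨γ, Gamma0_le_div h γ.2⟩
  coc γ j := ⟨delta M q j * γ * (delta M q (trIdx M q γ j))⁻¹,
    delta_mul_mem h hM (Gamma0_le_div h γ.2) j⟩
  rel γ j := by
    rw [← map_mul, ← map_mul]
    congr 1
    simp [trPerm, mul_assoc]
  perm_mul γ γ' j := trIdx_mul h hM (Gamma0_le_div h γ.2) (Gamma0_le_div h γ'.2) j

variable {M q}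

@[simp] theorem repsTr_α (h : q ^ 2 ∣ M) (hM : M ≠ 0) (j : ZMod q) :
    (repsTr M q h hM).α j = mapGL ℝ (delta M q j) := rfl

theorem repsTr_isInt (h : q ^ 2 ∣ M) (hM : M ≠ 0) : (repsTr M q h hM).IsInt := by
  intro j
  refine ⟨(delta M q j : Matrix (Fin 2) (Fin 2) ℤ), ?_⟩
  rw [repsTr_α, Matrix.SpecialLinearGroup.mapGL_coe_matrix]
  rfl

end Fermat.Agent.GT.W
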